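import Mathlib

/-!
# S15-MOD-U : derivatives of `℘`
-/

set_option autoImplicit false

open scoped Topology PeriodPair

namespace Fermat.Agent.S15.Mod.U

variable (L : PeriodPair)

theorem hasDerivAt_wp {z : ℂ} (hz : z ∉ L.lattice) : HasDerivAt ℘[L] (℘'[L] z) z := by
  have h := (L.analyticOnNhd_weierstrassP z hz).differentiableAt.hasDerivAt
  rwa [L.deriv_weierstrassP] at h

theorem Deriv_isPreconnected_compl : IsPreconnected ((L.lattice : Set ℂ)ᶜ) := by
  have hc : (L.lattice : Set ℂ).Countable := by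
    have : Countable L.lattice := L.latticeEquivProd.toEquiv.countable_iff.2 inferInstance
    exact Set.to_countable _
  refine (hc.isConnected_compl_of_one_lt_rank ?_).isPreconnected
  rw [Complex.rank_real_complex]
  norm_num

/-- `℘` is not locally constant: `℘'` does not vanish identically near any point `z ∉ L`.
[identity theorem on the preconnected open set `ℂ ∖ L`
(`Set.Countable.isPathConnected_compl_of_one_lt_rank` / `IsConnected`), `℘'` analytic there
(`analyticOnNhd_derivWeierstrassP`); if `℘' = 0` near `z` then `℘' = 0` on `ℂ ∖ L`, so `℘` is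
constant there, contradicting `order_weierstrassP` (pole of order 2 at 0) or
`not_continuousAt_weierstrassP`.] -/
theorem frequently_deriv_ne_zero {z : ℂ} (hz : z ∉ L.lattice) : ∃ᶠ w in 𝓝[≠] z, ℘'[L] w ≠ 0 := by
  intro hcon
  have hev : ∀ᶠ w in 𝓝[≠] z, ℘'[L] w = 0 := hcon.mono fun w hw => not_not.1 hw
  have hzero : Set.EqOn ℘'[L] 0 ((L.lattice : Set ℂ)ᶜ) :=
    L.analyticOnNhd_derivWeierstrassP.eqOn_zero_of_preconnected_of_frequently_eq_zero
      (Deriv_isPreconnected_compl L) hz hev.frequently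
  obtain ⟨a, ha⟩ := L.isClosed_lattice.isOpen_compl.exists_is_const_of_deriv_eq_zero
    (Deriv_isPreconnected_compl L) L.differentiableOn_weierstrassP
    (by rw [L.deriv_weierstrassP]; exact hzero)
  have hcongr : ℘[L] =ᶠ[𝓝[≠] (0 : ℂ)] fun _ => a := by
    have h1 : ∀ᶠ w in 𝓝[≠] (0 : ℂ), w ∈ ((L.lattice : Set ℂ) \ {0})ᶜ :=
      nhdsWithin_le_nhds (L.compl_lattice_sdiff_singleton_mem_nhds 0)
    filter_upwards [h1, self_mem_nhdsWithin] with w hw hw0
    exact ha w fun hwL => hw ⟨hwL, hw0⟩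
  have hord := L.order_weierstrassP 0 (zero_mem _)
  rw [meromorphicOrderAt_congr hcongr] at hord
  have hnn : 0 ≤ meromorphicOrderAt (fun _ : ℂ => a) 0 :=
    (analyticAt_const (𝕜 := ℂ) (v := a) (x := (0 : ℂ))).meromorphicOrderAt_nonneg
  rw [hord] at hnn
  exact absurd hnn (by decide)

/-- `℘'' = 6 ℘² - g₂/2`.
[Differentiate `derivWeierstrassP_sq`: `2 ℘' ℘'' = (12 ℘² - g₂) ℘'` on `ℂ ∖ L`.  So the analytic
function `deriv ℘' - (6℘² - g₂/2)` vanishes wherever `℘' ≠ 0`; by `frequently_deriv_ne_zero` and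
`AnalyticAt.frequently_zero_iff_eventually_zero` (or continuity) it vanishes at every `z ∉ L`.] -/
theorem hasDerivAt_wp' {z : ℂ} (hz : z ∉ L.lattice) :
    HasDerivAt ℘'[L] (6 * ℘[L] z ^ 2 - L.g₂ / 2) z := by
  have hU : IsOpen ((L.lattice : Set ℂ)ᶜ) := L.isClosed_lattice.isOpen_compl
  -- the differentiated relation
  have hrel : ∀ w, w ∉ L.lattice →
      2 * ℘'[L] w * deriv ℘'[L] w = (12 * ℘[L] w ^ 2 - L.g₂) * ℘'[L] w := by
    intro w hw
    have hP := hasDerivAt_wp L hw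
    have hP' := (L.analyticOnNhd_derivWeierstrassP w hw).differentiableAt.hasDerivAt
    have h1 : HasDerivAt (fun u => ℘'[L] u ^ 2) (2 * ℘'[L] w * deriv ℘'[L] w) w := by
      have h := hP'.fun_pow 2
      simpa using h
    have h2 : HasDerivAt (fun u => 4 * ℘[L] u ^ 3 - L.g₂ * ℘[L] u - L.g₃)
        (4 * (3 * ℘[L] w ^ 2 * ℘'[L] w) - L.g₂ * ℘'[L] w) w := by
      have h := (((hP.fun_pow 3).const_mul 4).sub (hP.const_mul L.g₂)).sub_const L.g₃
      simpa using h
    have heq : (fun u => ℘'[L] u ^ 2) =ᶠ[𝓝 w]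
        fun u => 4 * ℘[L] u ^ 3 - L.g₂ * ℘[L] u - L.g₃ := by
      filter_upwards [hU.mem_nhds hw] with u hu
      exact L.derivWeierstrassP_sq u hu
    have h3 := (h2.congr_of_eventuallyEq heq).unique h1
    linear_combination -h3
  have han : AnalyticAt ℂ (fun w => deriv ℘'[L] w - (6 * ℘[L] w ^ 2 - L.g₂ / 2)) z := by
    have h1 := (L.analyticOnNhd_derivWeierstrassP z hz).deriv
    have h2 := L.analyticOnNhd_weierstrassP z hz
    fun_prop
  have hfreq : ∃ᶠ w in 𝓝[≠] z, deriv ℘'[L] w - (6 * ℘[L] w ^ 2 - L.g₂ / 2) = 0 := by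
    have hev : ∀ᶠ w in 𝓝[≠] z, w ∉ L.lattice :=
      nhdsWithin_le_nhds (hU.mem_nhds hz)
    refine ((frequently_deriv_ne_zero L hz).and_eventually hev).mono ?_
    rintro w ⟨hw0, hw⟩
    have h := hrel w hw
    have h' : ℘'[L] w * (deriv ℘'[L] w - (6 * ℘[L] w ^ 2 - L.g₂ / 2)) = 0 := by
      linear_combination h / 2
    exact (mul_eq_zero.1 h').resolve_left hw0
  have hz0 := (han.frequently_zero_iff_eventually_zero.1 hfreq).self_of_nhds
  have hP' := (L.analyticOnNhd_derivWeierstrassP z hz).differentiableAt.hasDerivAt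
  rwa [sub_eq_zero.1 hz0] at hP'

end Fermat.Agent.S15.Mod.U
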