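import Mathlib

/-!
# S15-MOD-U : Liouville's theorem for meromorphic periodic functions without poles
-/

set_option autoImplicit false

open scoped Topology PeriodPair

namespace Fermat.Agent.S15.Mod.U

/-- the order of a periodic function is periodic.
[`f = f ∘ (· + l)`; `meromorphicOrderAt` of a composition with a translation; or unfold
`meromorphicOrderAt_eq_int_iff` / compare `meromorphicOrderAt_congr`.] -/
theorem order_add_period {f : ℂ → ℂ} {l : ℂ} (hper : ∀ z : ℂ, f (z + l) = f z) (z : ℂ) :
    meromorphicOrderAt f (z + l) = meromorphicOrderAt f z := by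
  have h : f ∘ (· + l) = f := funext hper
  rw [← meromorphicOrderAt_comp_add_const_eq_meromorphicOrderAt, h]

/-- PROOF. `g z := limUnder (𝓝[≠] z) f`.  For every `z`, `0 ≤ order` gives an analytic `h` near `z`
with `f = h` on a punctured neighbourhood (`MeromorphicAt` + `meromorphicOrderAt` API, e.g.
`tendsto_nhds_of_meromorphicOrderAt_nonneg`, `MeromorphicNFAt`, `toMeromorphicNFAt`), so `g = h`
near `z`: `g` is entire.  `g` is `L`-periodic, hence bounded
(`IsZLattice.isCompact_range_of_periodic`, see the end of Mathlib's `Weierstrass.lean`), hence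
constant `= c` (`Differentiable.apply_eq_apply_of_bounded`).  If `f` is continuous at `z`,
`f z = lim_{𝓝[≠] z} f = g z = c`. -/
theorem const_of_order_nonneg (L : PeriodPair) (f : ℂ → ℂ) (hf : ∀ z, MeromorphicAt f z)
    (hper : ∀ z : ℂ, ∀ l ∈ L.lattice, f (z + l) = f z)
    (hord : ∀ z, 0 ≤ meromorphicOrderAt f z) :
    ∃ c : ℂ, ∀ z, ContinuousAt f z → f z = c := by
  have hfU : MeromorphicOn f Set.univ := fun z _ => hf z
  set g : ℂ → ℂ := toMeromorphicNFOn f Set.univ with hg
  have hgf : ∀ z, g =ᶠ[𝓝[≠] z] f := fun z => hfU.toMeromorphicNFOn_eq_self_on_nhdsNE (Set.mem_univ z)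
  have hgan : ∀ z, AnalyticAt ℂ g z := by
    intro z
    have h1 : MeromorphicNFAt g z := meromorphicNFOn_toMeromorphicNFOn f Set.univ (Set.mem_univ z)
    rw [← h1.meromorphicOrderAt_nonneg_iff_analyticAt, hg,
      meromorphicOrderAt_toMeromorphicNFOn hfU (Set.mem_univ z)]
    exact hord z
  have hgd : Differentiable ℂ g := fun z => (hgan z).differentiableAt
  have hgc : Continuous g := hgd.continuous
  -- periodicity of `g`
  have hgper : ∀ z w, w ∈ L.lattice → g (z + w) = g z := by
    intro z w hw
    have ht : Filter.Tendsto (fun x : ℂ => x + w) (𝓝[≠] z) (𝓝[≠] (z + w)) := by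
      apply tendsto_nhdsWithin_of_tendsto_nhds_of_eventually_within
      · exact ((continuous_id.add continuous_const).tendsto z).mono_left nhdsWithin_le_nhds
      · filter_upwards [self_mem_nhdsWithin] with x hx
        intro h
        exact hx (add_right_cancel h)
    have h1 : (fun x : ℂ => g (x + w)) =ᶠ[𝓝[≠] z] g := by
      filter_upwards [ht.eventually (hgf (z + w)), hgf z] with x hx hx'
      rw [hx, hx', hper x w hw]
    have h2 : Filter.Tendsto (fun x : ℂ => g (x + w)) (𝓝[≠] z) (𝓝 (g (z + w))) :=
      ((hgc.comp (continuous_id.add continuous_const)).tendsto z).mono_left nhdsWithin_le_nhds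
    have h3 : Filter.Tendsto g (𝓝[≠] z) (𝓝 (g z)) := (hgc.tendsto z).mono_left nhdsWithin_le_nhds
    exact tendsto_nhds_unique (h2.congr' h1) h3
  have hb : Bornology.IsBounded (Set.range g) :=
    (IsZLattice.isCompact_range_of_periodic L.lattice g hgc hgper).isBounded
  refine ⟨g 0, fun z hz => ?_⟩
  have h3 : Filter.Tendsto g (𝓝[≠] z) (𝓝 (g z)) := (hgc.tendsto z).mono_left nhdsWithin_le_nhds
  have h4 : Filter.Tendsto f (𝓝[≠] z) (𝓝 (f z)) := hz.tendsto.mono_left nhdsWithin_le_nhds
  rw [tendsto_nhds_unique h4 (h3.congr' (hgf z))]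
  exact hgd.apply_eq_apply_of_bounded hb z 0

end Fermat.Agent.S15.Mod.U
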