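import Mathlib

/-!
# S15-MOD-U : coprime lifts
-/

set_option autoImplicit false

namespace Fermat.Agent.S15.Mod.U

/-- PROOF. If `a = 0`: `(p, b)` (`p ∤ b`).  Otherwise take `b' = b + p t` with `t` = the product of
the primes `r ∣ a` with `r ∤ b` and `r ≠ p`... (for a prime `r ∣ a`: if `r = p` then `p ∤ b`;
if `r ∣ b`, `r ≠ p`, then `r ∤ t`, so `r ∤ b + p t`; if `r ∤ b`, `r ≠ p`, then `r ∣ t`.)  Any other
proof is fine (e.g. induction, or `Nat.exists_prime_...`-free CRT argument). -/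
theorem exists_coprime_lift {p : ℕ} (hp : p.Prime) {a b : ℤ} (h : ¬ ((p : ℤ) ∣ a ∧ (p : ℤ) ∣ b)) :
    ∃ a' b' : ℤ, IsCoprime a' b' ∧ (p : ℤ) ∣ a' - a ∧ (p : ℤ) ∣ b' - b := by
  have hpi : Prime (p : ℤ) := Nat.prime_iff_prime_int.mp hp
  by_cases ha : (p : ℤ) ∣ a
  · have hb : ¬ (p : ℤ) ∣ b := fun hb => h ⟨ha, hb⟩
    obtain ⟨u, v, huv⟩ : IsCoprime b (p : ℤ) := (hpi.coprime_iff_not_dvd.mpr hb).symm
    refine ⟨a + p * (v * (1 - a)), b, ⟨1, u * (1 - a), ?_⟩, ⟨v * (1 - a), by ring⟩, ⟨0, by ring⟩⟩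
    linear_combination (1 - a) * huv
  · obtain ⟨u, v, huv⟩ : IsCoprime a (p : ℤ) := (hpi.coprime_iff_not_dvd.mpr ha).symm
    refine ⟨a, b + p * (v * (1 - b)), ⟨u * (1 - b), 1, ?_⟩, ⟨0, by ring⟩, ⟨v * (1 - b), by ring⟩⟩
    linear_combination (1 - b) * huv

end Fermat.Agent.S15.Mod.U
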