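import Fermat.Agent.S15.Mod.U.Congr
import Fermat.Agent.S15.Mod.U.Coprime

/-!
# S15-MOD-U : moving a point of order `p` of `ℂ/L` to `d/p`
-/

set_option autoImplicit false

open UpperHalfPlane MatrixGroups
open scoped Topology PeriodPair

namespace Fermat.Agent.S15.Mod.U

open Fermat.Agent.Lib.JInjective

theorem Move_smul_mul (τ₁ : ℍ) (γ : SL(2, ℤ)) (h : (γ 1 0 : ℂ) * τ₁ + γ 1 1 ≠ 0) :
    ((γ 1 0 : ℂ) * τ₁ + γ 1 1) * ((γ • τ₁ : ℍ) : ℂ) = (γ 0 0 : ℂ) * τ₁ + γ 0 1 := by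
  rw [UpperHalfPlane.coe_specialLinearGroup_apply]
  simp only [algebraMap_int_eq, eq_intCast, Complex.ofReal_intCast]
  rw [mul_div_cancel₀ _ h]

theorem Move_det (γ : SL(2, ℤ)) : γ 0 0 * γ 1 1 - γ 0 1 * γ 1 0 = 1 := by
  have h := γ.det_coe
  rwa [Matrix.det_fin_two] at h

/-- for `γ = !![c, e; a, b] ∈ SL₂(ℤ)`, `τ = γ • τ₁`, `d' = d (a τ₁ + b)`:
`d' τ = d (c τ₁ + e)` and the two pairs span the same lattice. -/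
theorem lattice_pp_smul (d : ℂ) (hd : d ≠ 0) (τ₁ : ℍ) (γ : SL(2, ℤ))
    (hd' : d * ((γ 1 0 : ℂ) * τ₁ + γ 1 1) ≠ 0) :
    (pp (d * ((γ 1 0 : ℂ) * τ₁ + γ 1 1)) hd' (γ • τ₁)).lattice = (pp d hd τ₁).lattice := by
  have h0 : (γ 1 0 : ℂ) * τ₁ + γ 1 1 ≠ 0 := right_ne_zero_of_mul hd'
  have hk := Move_smul_mul τ₁ γ h0
  have hdet : ((γ 0 0 : ℤ) : ℂ) * γ 1 1 - (γ 0 1 : ℂ) * γ 1 0 = 1 := by
    exact_mod_cast Move_det γ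
  ext x
  rw [mem_lattice_pp, mem_lattice_pp]
  constructor
  · rintro ⟨m, n, rfl⟩
    refine ⟨m * γ 0 0 + n * γ 1 0, m * γ 0 1 + n * γ 1 1, ?_⟩
    push_cast
    linear_combination (d * m) * hk
  · rintro ⟨M, N, rfl⟩
    refine ⟨γ 1 1 * M - γ 1 0 * N, - γ 0 1 * M + γ 0 0 * N, ?_⟩
    push_cast
    linear_combination (-(d * ((γ 1 1 : ℂ) * M - γ 1 0 * N))) * hk
      - (d * (M * (τ₁ : ℂ) + N)) * hdet

/-- `p z₀ = d (a τ₁ + b)` with `¬ (p ∣ a ∧ p ∣ b)`; `exists_coprime_lift`; complete `(a', b')` to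
`γ ∈ SL₂(ℤ)` with bottom row `(a', b')`; `lattice_pp_smul`;
`z₀ - d'/p = d ((a - a')/p τ₁ + (b - b')/p) ∈ L`. -/
theorem exists_move (d : ℂ) (hd : d ≠ 0) (τ₁ : ℍ) {p : ℕ} (hp : p.Prime) {z₀ : ℂ}
    (hz₀ : z₀ ∉ (pp d hd τ₁).lattice) (hp0 : (p : ℂ) * z₀ ∈ (pp d hd τ₁).lattice) :
    ∃ (τ : ℍ) (d' : ℂ) (hd' : d' ≠ 0), (pp d' hd' τ).lattice = (pp d hd τ₁).lattice ∧
      z₀ - d' / p ∈ (pp d hd τ₁).lattice := by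
  have hpC : (p : ℂ) ≠ 0 := Nat.cast_ne_zero.2 hp.ne_zero
  obtain ⟨a, b, hab⟩ := mem_lattice_pp.1 hp0
  have hndvd : ¬ ((p : ℤ) ∣ a ∧ (p : ℤ) ∣ b) := by
    rintro ⟨⟨k, rfl⟩, ⟨l, rfl⟩⟩
    apply hz₀
    rw [mem_lattice_pp]
    refine ⟨k, l, ?_⟩
    apply mul_left_cancel₀ hpC
    rw [hab]
    push_cast
    ring
  obtain ⟨a', b', hcop, ⟨k, hk⟩, ⟨l, hl⟩⟩ := exists_coprime_lift hp hndvd
  obtain ⟨γ, hγ0, hγ1⟩ := hcop.exists_SL2_row 1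
  have hlin : (γ 1 0 : ℂ) * τ₁ + γ 1 1 ≠ 0 := by
    intro h
    have h3 := congrArg Complex.im h
    simp at h3
    have ha0 : γ 1 0 = 0 := h3.resolve_right τ₁.im_ne_zero
    rw [ha0] at h
    simp at h
    rw [hγ0] at ha0
    rw [hγ1] at h
    rw [ha0, h] at hcop
    exact not_isCoprime_zero_zero hcop
  have hd' : d * ((γ 1 0 : ℂ) * τ₁ + γ 1 1) ≠ 0 := mul_ne_zero hd hlin
  refine ⟨γ • τ₁, d * ((γ 1 0 : ℂ) * τ₁ + γ 1 1), hd', lattice_pp_smul d hd τ₁ γ hd', ?_⟩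
  rw [mem_lattice_pp]
  refine ⟨-k, -l, ?_⟩
  apply mul_left_cancel₀ hpC
  rw [mul_sub, hab, mul_div_cancel₀ _ hpC, hγ0, hγ1]
  have hk' : (a' : ℂ) - a = p * k := by exact_mod_cast hk
  have hl' : (b' : ℂ) - b = p * l := by exact_mod_cast hl
  push_cast
  linear_combination (-(d * (τ₁ : ℂ))) * hk' - d * hl'

end Fermat.Agent.S15.Mod.U
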