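import Fermat.Agent.S15.Mod.U.PP
import Fermat.Agent.S24.LevelOneAux

/-!
# S15-MOD-U : every `(c₄, c₆)` with `c₄ c₆ (c₄³ - c₆²) ≠ 0` comes from a lattice
-/

set_option autoImplicit false

open UpperHalfPlane ModularForm EisensteinSeries
open scoped Topology PeriodPair Real

namespace Fermat.Agent.S15.Mod.U

open Fermat.Agent.Lib.JInjective

/-- PROOF. `τ` with `jf τ = 1728 c4³/(c4³ - c6²)` (`S24.LevelOne.jf_surjective`); then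
`E₄ τ ≠ 0`, `E₆ τ ≠ 0` (`jf_eq_zero_iff`, `jf_eq_1728_iff`) and `E₄³ c6² = c4³ E₆²`
(`jf_mul_disc`, `jf_sub_mul_disc`).  `t := c6 E₄ / (c4 E₆)` satisfies `t² E₄ = c4`, `t³ E₆ = c6`.
`d` := a square root of `4π²/t` (`IsAlgClosed.exists_pow_nat_eq` / `Complex.cpow`); `g₂_pp`, `g₃_pp`:
`12 g₂ = 16 π⁴ d⁻⁴ E₄ = t² E₄`, `216 g₃ = 64 π⁶ d⁻⁶ E₆ = t³ E₆`. -/
theorem exists_lattice {c4 c6 : ℂ} (h : c4 ^ 3 - c6 ^ 2 ≠ 0) (h4 : c4 ≠ 0) (h6 : c6 ≠ 0) :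
    ∃ (τ : ℍ) (d : ℂ) (hd : d ≠ 0), c4 = 12 * (pp d hd τ).g₂ ∧ c6 = 216 * (pp d hd τ).g₃ := by
  obtain ⟨τ, hτ⟩ := Fermat.Agent.S24.LevelOne.jf_surjective (1728 * c4 ^ 3 / (c4 ^ 3 - c6 ^ 2))
  have hΔ : ModularForm.discriminant τ ≠ 0 := discriminant_ne_zero τ
  have e1 := Fermat.Agent.S24.LevelOne.jf_mul_disc τ
  have e2 := Fermat.Agent.S24.LevelOne.jf_sub_mul_disc τ
  rw [hτ] at e1 e2
  generalize ModularForm.discriminant τ = Dl at hΔ e1 e2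
  have hπ : (π : ℂ) ≠ 0 := by exact_mod_cast Real.pi_ne_zero
  have k1 : 1728 * c4 ^ 3 * Dl = E₄ τ ^ 3 * (c4 ^ 3 - c6 ^ 2) := by
    rw [← e1]; field_simp
  have k2 : 1728 * c6 ^ 2 * Dl = E₆ τ ^ 2 * (c4 ^ 3 - c6 ^ 2) := by
    rw [← e2]; field_simp; ring
  have hE4 : E₄ τ ≠ 0 := by
    intro h0
    rw [h0] at k1
    have : 1728 * c4 ^ 3 * Dl ≠ 0 := mul_ne_zero (mul_ne_zero (by norm_num) (pow_ne_zero 3 h4)) hΔ
    exact this (by rw [k1]; ring)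
  have hE6 : E₆ τ ≠ 0 := by
    intro h0
    rw [h0] at k2
    have : 1728 * c6 ^ 2 * Dl ≠ 0 := mul_ne_zero (mul_ne_zero (by norm_num) (pow_ne_zero 2 h6)) hΔ
    exact this (by rw [k2]; ring)
  have k3 : E₄ τ ^ 3 * c6 ^ 2 = c4 ^ 3 * E₆ τ ^ 2 := by
    have : (E₄ τ ^ 3 * c6 ^ 2 - c4 ^ 3 * E₆ τ ^ 2) * (c4 ^ 3 - c6 ^ 2) = 0 := by
      linear_combination c4 ^ 3 * k2 - c6 ^ 2 * k1
    exact sub_eq_zero.1 ((mul_eq_zero.1 this).resolve_right h)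
  obtain ⟨t, ht⟩ : ∃ t : ℂ, t = c6 * E₄ τ / (c4 * E₆ τ) := ⟨_, rfl⟩
  have ht0 : t ≠ 0 := by
    rw [ht]
    exact div_ne_zero (mul_ne_zero h6 hE4) (mul_ne_zero h4 hE6)
  have t2 : t ^ 2 * E₄ τ = c4 := by
    rw [ht, div_pow, div_mul_eq_mul_div, div_eq_iff (pow_ne_zero 2 (mul_ne_zero h4 hE6))]
    linear_combination k3
  have t3 : t ^ 3 * E₆ τ = c6 := by
    rw [ht, div_pow, div_mul_eq_mul_div, div_eq_iff (pow_ne_zero 3 (mul_ne_zero h4 hE6))]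
    linear_combination c6 * E₆ τ * k3
  obtain ⟨d, hd2⟩ := IsAlgClosed.exists_pow_nat_eq (4 * (π : ℂ) ^ 2 / t) (n := 2) (by norm_num)
  have hd : d ≠ 0 := by
    rintro rfl
    have : (4 * (π : ℂ) ^ 2 / t) ≠ 0 :=
      div_ne_zero (mul_ne_zero (by norm_num) (pow_ne_zero 2 hπ)) ht0
    exact this (by rw [← hd2]; ring)
  have hd4 : (d ^ 4)⁻¹ = t ^ 2 / (16 * (π : ℂ) ^ 4) := by
    rw [show d ^ 4 = (d ^ 2) ^ 2 by ring, hd2]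
    field_simp
    ring
  have hd6 : (d ^ 6)⁻¹ = t ^ 3 / (64 * (π : ℂ) ^ 6) := by
    rw [show d ^ 6 = (d ^ 2) ^ 3 by ring, hd2]
    field_simp
    ring
  refine ⟨τ, d, hd, ?_, ?_⟩
  · rw [g₂_pp, hd4, ← t2]
    field_simp
    ring
  · rw [g₃_pp, hd6, ← t3]
    field_simp
    ring

end Fermat.Agent.S15.Mod.U
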