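import Fermat.Agent.S15.Mod.U.Liouville

/-!
# S15-MOD-U : `℘` is surjective
-/

set_option autoImplicit false

open scoped Topology PeriodPair

namespace Fermat.Agent.S15.Mod.U

variable (L : PeriodPair)

/-- PROOF. Otherwise `f z := (℘ z - c)⁻¹` is meromorphic, periodic; analytic (order `≥ 0`) at
`z ∉ L` because `℘ z ≠ c`; of order `+2` at `z ∈ L` (`order_weierstrassP`, `meromorphicOrderAt_inv`;
subtracting the constant `c` does not change a negative order).  By `const_of_order_nonneg`
`f = c'` on `ℂ ∖ L`, so `℘` is constant on `ℂ ∖ L`: contradiction with `order_weierstrassP`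
(a function which is constant on a punctured neighbourhood of `0` has order `0` or `⊤`). -/
theorem wp_surj (c : ℂ) : ∃ z, z ∉ L.lattice ∧ ℘[L] z = c := by
  by_contra hcon
  have h : ∀ z, z ∉ L.lattice → ℘[L] z ≠ c := fun z hz hc => hcon ⟨z, hz, hc⟩
  have hmer : ∀ z, MeromorphicAt (fun z => ℘[L] z + (-c)) z := fun z =>
    (L.meromorphic_weierstrassP z).add (MeromorphicAt.const (-c) z)
  have han : ∀ z, z ∉ L.lattice → AnalyticAt ℂ (fun z => (℘[L] z + (-c))⁻¹) z := fun z hz =>
    ((L.analyticOnNhd_weierstrassP z hz).add analyticAt_const).inv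
      (by
        show ℘[L] z + (-c) ≠ 0
        rw [← sub_eq_add_neg]; exact sub_ne_zero.2 (h z hz))
  obtain ⟨c', hc'⟩ := const_of_order_nonneg L (fun z => (℘[L] z + (-c))⁻¹)
    (fun z => (hmer z).inv)
    (fun z l hl => by
      show (℘[L] (z + l) + (-c))⁻¹ = (℘[L] z + (-c))⁻¹
      rw [L.weierstrassP_add_coe z ⟨l, hl⟩])
    (fun z => by
      by_cases hz : z ∈ L.lattice
      · have h1 : meromorphicOrderAt (fun z => ℘[L] z + (-c)) z = -2 := by
          have h2 : meromorphicOrderAt ℘[L] z < meromorphicOrderAt (fun _ : ℂ => (-c)) z := by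
            rw [L.order_weierstrassP z hz]
            exact lt_of_lt_of_le (by decide)
              (analyticAt_const (x := z) (v := -c)).meromorphicOrderAt_nonneg
          have h3 := meromorphicOrderAt_add_eq_left_of_lt (MeromorphicAt.const (-c) z) h2
          rw [L.order_weierstrassP z hz] at h3
          exact h3
        have h4 : meromorphicOrderAt (fun z => (℘[L] z + (-c))⁻¹) z = 2 := by
          have := meromorphicOrderAt_inv (f := fun z => ℘[L] z + (-c)) (x := z)
          rw [h1] at this
          exact this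
        rw [h4]
        decide
      · exact (han z hz).meromorphicOrderAt_nonneg)
  have hconst : ∀ z, z ∉ L.lattice → ℘[L] z = c + c'⁻¹ := fun z hz => by
    have := hc' z (han z hz).continuousAt
    rw [← this]
    simp
  have hev : ℘[L] =ᶠ[𝓝[≠] (0 : ℂ)] fun _ => c + c'⁻¹ := by
    have h1 := L.compl_lattice_sdiff_singleton_mem_nhds 0
    filter_upwards [nhdsWithin_le_nhds h1, self_mem_nhdsWithin] with z hz hz0
    exact hconst z fun hzL => hz ⟨hzL, hz0⟩
  have h5 := meromorphicOrderAt_congr hev
  rw [L.order_weierstrassP 0 (zero_mem _)] at h5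
  have h6 := (analyticAt_const (x := (0 : ℂ)) (v := c + c'⁻¹) (𝕜 := ℂ)).meromorphicOrderAt_nonneg
  rw [← h5] at h6
  exact absurd h6 (by decide)

end Fermat.Agent.S15.Mod.U
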