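import Fermat.Agent.S15.Mod.U.Ladder
import Fermat.Agent.S15.Mod.U.Surj
import Fermat.Agent.S15.Mod.U.Move
import Fermat.Agent.S15.Mod.U.Scale

/-!
# S15-MOD-U : uniformisation of `(W, Q)` by `(ℂ / d(ℤτ + ℤ), d/p)`
-/

set_option autoImplicit false

open UpperHalfPlane
open scoped Topology PeriodPair

namespace Fermat.Agent.S15.Mod.U

open WeierstrassCurve WeierstrassCurve.Affine Fermat.Agent.S05 Fermat.Agent.Lib.JInjective

/-- **Export of MOD-U.** -/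
theorem exists_unif [DecidableEq ℂ] (W : WeierstrassCurve.Affine ℂ) (hΔ : W.Δ ≠ 0) (hc4 : W.c₄ ≠ 0)
    (hc6 : W.c₆ ≠ 0) {p : ℕ} (hp : p.Prime) (hp2 : p ≠ 2) (Q : W.Point)
    (hQ : addOrderOf Q = p) :
    ∃ (τ : ℍ) (d : ℂ) (hd : d ≠ 0), W.c₄ = 12 * (pp d hd τ).g₂ ∧ W.c₆ = 216 * (pp d hd τ).g₃ ∧
      ∀ k : ℕ, 0 < k → k < p → xc (k • Q) + W.b₂ / 12 = ℘[pp d hd τ] ((k : ℂ) * (d / p)) := by
  have hrel : W.c₄ ^ 3 - W.c₆ ^ 2 ≠ 0 := by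
    rw [← W.c_relation]
    exact mul_ne_zero (by norm_num) hΔ
  obtain ⟨τ₁, d₁, hd₁, h4, h6⟩ := exists_lattice hrel hc4 hc6
  set L := pp d₁ hd₁ τ₁ with hL
  have hdisc := disc_pp_ne_zero d₁ hd₁ τ₁
  obtain ⟨z₀, hz₀, hx⟩ := wp_surj L (X Q)
  have hall := ladder_all L h4 h6 hp hp2 hQ hz₀ hx
  have htop := ladder_top L h4 h6 hdisc hp hp2 hQ hz₀ hx
  obtain ⟨τ, d, hd, hlat, hmem⟩ := exists_move d₁ hd₁ τ₁ hp hz₀ htop
  refine ⟨τ, d, hd, ?_, ?_, fun k hk hkp => ?_⟩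
  · rw [h4, g₂_congr hlat]
  · rw [h6, g₃_congr hlat]
  · have h1 := (hall k hk hkp).2
    rw [wp_congr hlat]
    change X (k • Q) = _
    rw [← h1]
    have h2 : (k : ℂ) * z₀ = (k : ℂ) * (d / p) + (k : ℂ) * (z₀ - d / p) := by ring
    have h3 : (k : ℂ) * (z₀ - d / p) ∈ L.lattice := by
      have := L.lattice.smul_mem (k : ℤ) hmem
      simpa using this
    rw [h2]
    exact L.weierstrassP_add_coe _ ⟨_, h3⟩

end Fermat.Agent.S15.Mod.U
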