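import Fermat.Agent.S15.Mod.U.AddDefs

/-!
# S15-MOD-U : local behaviour of `addRel` away from `0`
-/

set_option autoImplicit false

open scoped Topology PeriodPair

namespace Fermat.Agent.S15.Mod.U

variable (L : PeriodPair)

theorem AddLoc_meromorphicAt_shift (w z : ℂ) : MeromorphicAt (fun z => ℘[L] (z + w)) z :=
  meromorphicAt_comp_add_const_iff_meromorphicAt.2 (L.meromorphic_weierstrassP (z + w))

theorem meromorphicAt_addRel (w z : ℂ) : MeromorphicAt (addRel L w) z := by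
  have h1 := AddLoc_meromorphicAt_shift L w z
  have h2 : MeromorphicAt ℘[L] z := L.meromorphic_weierstrassP z
  have h3 : MeromorphicAt ℘'[L] z := L.meromorphic_derivWeierstrassP z
  show MeromorphicAt (fun z => 4 * (℘[L] (z + w) + ℘[L] z + ℘[L] w) * (℘[L] z - ℘[L] w) ^ 2 -
    (℘'[L] z - ℘'[L] w) ^ 2) z
  fun_prop

theorem addRel_add_period (w z : ℂ) {l : ℂ} (hl : l ∈ L.lattice) :
    addRel L w (z + l) = addRel L w z := by
  have h1 : ℘[L] (z + l + w) = ℘[L] (z + w) := by
    rw [add_right_comm]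
    exact L.weierstrassP_add_coe (z + w) ⟨l, hl⟩
  have h2 : ℘[L] (z + l) = ℘[L] z := L.weierstrassP_add_coe z ⟨l, hl⟩
  have h3 : ℘'[L] (z + l) = ℘'[L] z := L.derivWeierstrassP_add_coe z ⟨l, hl⟩
  unfold addRel
  rw [h1, h2, h3]

theorem analyticAt_addRel {w z : ℂ} (hz : z ∉ L.lattice) (hzw : z + w ∉ L.lattice) :
    AnalyticAt ℂ (addRel L w) z := by
  have h1 : AnalyticAt ℂ (fun z => ℘[L] (z + w)) z :=
    AnalyticAt.fun_comp (g := ℘[L]) (f := fun z => z + w) (L.analyticOnNhd_weierstrassP _ hzw)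
      (by fun_prop)
  have h2 : AnalyticAt ℂ ℘[L] z := L.analyticOnNhd_weierstrassP _ hz
  have h3 : AnalyticAt ℂ ℘'[L] z := L.analyticOnNhd_derivWeierstrassP _ hz
  show AnalyticAt ℂ (fun z => 4 * (℘[L] (z + w) + ℘[L] z + ℘[L] w) * (℘[L] z - ℘[L] w) ^ 2 -
    (℘'[L] z - ℘'[L] w) ^ 2) z
  fun_prop

/-- at `z = -w`: `℘ (z + w)` has order `-2` (`order_weierstrassP` + translation), `℘ z - ℘ w` is
analytic and vanishes at `-w` (`weierstrassP_neg`): order `≥ 1`; everything else is analytic. -/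
theorem order_addRel_neg {w : ℂ} (hw : w ∉ L.lattice) :
    0 ≤ meromorphicOrderAt (addRel L w) (-w) := by
  have hw' : -w ∉ L.lattice := fun h => hw (by simpa using L.lattice.neg_mem h)
  have hPan : AnalyticAt ℂ ℘[L] (-w) := L.analyticOnNhd_weierstrassP _ hw'
  have hP'an : AnalyticAt ℂ ℘'[L] (-w) := L.analyticOnNhd_derivWeierstrassP _ hw'
  have hP : MeromorphicAt (fun z => ℘[L] (z + w)) (-w) := AddLoc_meromorphicAt_shift L w (-w)
  have hoP : meromorphicOrderAt (fun z => ℘[L] (z + w)) (-w) = ((-2 : ℤ) : WithTop ℤ) := by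
    have h := meromorphicOrderAt_comp_add_const_eq_meromorphicOrderAt (x := -w) (c := w)
      (f := ℘[L])
    rw [neg_add_cancel, L.order_weierstrassP 0 (zero_mem _)] at h
    rw [show (fun z => ℘[L] (z + w)) = ℘[L] ∘ (· + w) from rfl, h]
    norm_num
  have hA : AnalyticAt ℂ (fun z => ℘[L] z + ℘[L] w) (-w) := hPan.add analyticAt_const
  have hB : AnalyticAt ℂ (fun z => ℘[L] z - ℘[L] w) (-w) := hPan.sub analyticAt_const
  have hE : AnalyticAt ℂ (fun z => (℘'[L] z - ℘'[L] w) ^ 2) (-w) :=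
    (hP'an.sub analyticAt_const).pow 2
  have hoB : ((1 : ℤ) : WithTop ℤ) ≤ meromorphicOrderAt (fun z => ℘[L] z - ℘[L] w) (-w) := by
    have h1 : 0 < meromorphicOrderAt (fun z => ℘[L] z - ℘[L] w) (-w) := by
      rw [← tendsto_zero_iff_meromorphicOrderAt_pos hB.meromorphicAt]
      have h2 := hB.continuousAt.tendsto
      simp only [L.weierstrassP_neg, sub_self] at h2
      exact h2.mono_left nhdsWithin_le_nhds
    cases h : meromorphicOrderAt (fun z => ℘[L] z - ℘[L] w) (-w) with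
    | top => exact le_top
    | coe n =>
      rw [h] at h1
      have h3 : (0 : ℤ) < n := by exact_mod_cast h1
      exact_mod_cast h3
  have h4 : AnalyticAt ℂ (fun _ : ℂ => (4 : ℂ)) (-w) := analyticAt_const
  have hPA : ((-2 : ℤ) : WithTop ℤ) ≤
      meromorphicOrderAt ((fun z => ℘[L] (z + w)) + fun z => ℘[L] z + ℘[L] w) (-w) := by
    refine le_trans (le_min ?_ ?_) (meromorphicOrderAt_add hP hA.meromorphicAt)
    · rw [hoP]
    · refine le_trans ?_ hA.meromorphicOrderAt_nonneg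
      exact_mod_cast (by norm_num : (-2 : ℤ) ≤ 0)
  have heq : addRel L w = (fun _ : ℂ => (4 : ℂ)) *
      ((fun z => ℘[L] (z + w)) + fun z => ℘[L] z + ℘[L] w) *
      ((fun z => ℘[L] z - ℘[L] w) * fun z => ℘[L] z - ℘[L] w) +
      (-fun z => (℘'[L] z - ℘'[L] w) ^ 2) := by
    funext z
    simp only [addRel, Pi.add_apply, Pi.mul_apply, Pi.neg_apply]
    ring
  rw [heq]
  refine le_trans (le_min ?_ ?_) (meromorphicOrderAt_add
    ((h4.meromorphicAt.mul (hP.add hA.meromorphicAt)).mul (hB.meromorphicAt.mul hB.meromorphicAt))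
    hE.neg.meromorphicAt)
  · rw [meromorphicOrderAt_mul (h4.meromorphicAt.mul (hP.add hA.meromorphicAt))
      (hB.meromorphicAt.mul hB.meromorphicAt),
      meromorphicOrderAt_mul h4.meromorphicAt (hP.add hA.meromorphicAt),
      meromorphicOrderAt_mul hB.meromorphicAt hB.meromorphicAt]
    have h5 := add_le_add (add_le_add h4.meromorphicOrderAt_nonneg hPA) (add_le_add hoB hoB)
    refine le_trans ?_ h5
    exact_mod_cast (by norm_num : (0 : ℤ) ≤ 0 + -2 + (1 + 1))
  · exact hE.neg.meromorphicOrderAt_nonneg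

end Fermat.Agent.S15.Mod.U
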