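import Fermat.Agent.S15.Mod.U.AddPole
import Fermat.Agent.S15.Mod.U.AddLoc
import Fermat.Agent.S15.Mod.U.Liouville

/-!
# S15-MOD-U : the addition theorem for `℘`
-/

set_option autoImplicit false

open scoped Topology PeriodPair

namespace Fermat.Agent.S15.Mod.U

variable (L : PeriodPair)

/-- cases `z ∈ L` (`order_add_period`, `order_addRel_zero`), `z + w ∈ L` (`order_add_period`,
`order_addRel_neg`), else analytic. -/
theorem order_addRel {w : ℂ} (hw : w ∉ L.lattice) (z : ℂ) :
    0 ≤ meromorphicOrderAt (addRel L w) z := by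
  by_cases hz : z ∈ L.lattice
  · have h := order_add_period (f := addRel L w) (l := z)
      (fun z' => addRel_add_period L w z' hz) 0
    rw [zero_add] at h
    rw [h]
    exact order_addRel_zero L hw
  · by_cases hzw : z + w ∈ L.lattice
    · have h := order_add_period (f := addRel L w) (l := z + w)
        (fun z' => addRel_add_period L w z' hzw) (-w)
      have h1 : -w + (z + w) = z := by ring
      rw [h1] at h
      rw [h]
      exact order_addRel_neg L hw
    · exact (analyticAt_addRel L hz hzw).meromorphicOrderAt_nonneg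

/-- **Addition theorem.**  `const_of_order_nonneg` gives `c`; `addRel L w w = 0` by definition and
`addRel L w` is continuous at `w` because `2 w ∉ L`. -/
theorem add_formula {z w : ℂ} (hz : z ∉ L.lattice) (hw : w ∉ L.lattice)
    (hzw : z + w ∉ L.lattice) (h2 : 2 * w ∉ L.lattice) :
    4 * (℘[L] (z + w) + ℘[L] z + ℘[L] w) * (℘[L] z - ℘[L] w) ^ 2 =
      (℘'[L] z - ℘'[L] w) ^ 2 := by
  obtain ⟨c, hc⟩ := const_of_order_nonneg L (addRel L w) (meromorphicAt_addRel L w)
    (fun z l hl => addRel_add_period L w z hl) (order_addRel L hw)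
  have hww : w + w ∉ L.lattice := by rwa [← two_mul]
  have h0 : addRel L w w = 0 := by
    unfold addRel
    ring
  have hc0 : c = 0 := by
    rw [← hc w (analyticAt_addRel L hw hww).continuousAt, h0]
  have h1 := hc z (analyticAt_addRel L hz hzw).continuousAt
  rw [hc0] at h1
  exact sub_eq_zero.1 h1

/-- `add_formula` for `-w` -/
theorem sub_formula {z w : ℂ} (hz : z ∉ L.lattice) (hw : w ∉ L.lattice)
    (hzw : z - w ∉ L.lattice) (h2 : 2 * w ∉ L.lattice) :
    4 * (℘[L] (z - w) + ℘[L] z + ℘[L] w) * (℘[L] z - ℘[L] w) ^ 2 =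
      (℘'[L] z + ℘'[L] w) ^ 2 := by
  have hw' : -w ∉ L.lattice := fun h => hw (by simpa using L.lattice.neg_mem h)
  have h2' : 2 * (-w) ∉ L.lattice := fun h => h2 (by simpa using L.lattice.neg_mem h)
  have hzw' : z + -w ∉ L.lattice := by rwa [← sub_eq_add_neg]
  have h := add_formula L hz hw' hzw' h2'
  rw [L.weierstrassP_neg, L.derivWeierstrassP_neg, ← sub_eq_add_neg, sub_neg_eq_add] at h
  exact h

end Fermat.Agent.S15.Mod.U
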