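import Mathlib
import Fermat.Agent.Lib.JInjective

/-!
# S15-MOD-U : `g₂`, `g₃`, discriminant of the period pairs `pp d hd τ = (dτ, d)`
-/

set_option autoImplicit false

open UpperHalfPlane ModularForm EisensteinSeries
open scoped Topology PeriodPair Real

namespace Fermat.Agent.S15.Mod.U

open Fermat.Agent.Lib.JInjective

/-- `G_pp` and `riemannZeta_four` -/
theorem g₂_pp (d : ℂ) (hd : d ≠ 0) (τ : ℍ) :
    (pp d hd τ).g₂ = 4 * (π : ℂ) ^ 4 / 3 * (d ^ 4)⁻¹ * E₄ τ := by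
  have h := G_pp d hd τ (k := 4) (by norm_num)
  have hz : riemannZeta ((4 : ℕ) : ℂ) = (π : ℂ) ^ 4 / 90 := by
    rw [← riemannZeta_four]
    norm_num
  rw [hz] at h
  rw [PeriodPair.g₂, h]
  ring

theorem PP_riemannZeta_six : riemannZeta ((6 : ℕ) : ℂ) = (π : ℂ) ^ 6 / 945 := by
  have h := riemannZeta_two_mul_nat (k := 3) (by norm_num)
  have hb : bernoulli (2 * 3) = 1 / 42 := by decide +kernel
  have hf : ((2 * 3).factorial : ℂ) = 720 := by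
    norm_num [Nat.factorial]
  rw [hb, hf] at h
  have h6 : ((6 : ℕ) : ℂ) = 2 * ((3 : ℕ) : ℂ) := by norm_num
  rw [h6, h]
  push_cast
  ring

/-- `G_pp` and `ζ(6) = π⁶/945` (`riemannZeta_two_mul_nat` / `hasSum_zeta_nat`, Bernoulli `B₆ = 1/42`) -/
theorem g₃_pp (d : ℂ) (hd : d ≠ 0) (τ : ℍ) :
    (pp d hd τ).g₃ = 8 * (π : ℂ) ^ 6 / 27 * (d ^ 6)⁻¹ * E₆ τ := by
  have h := G_pp d hd τ (k := 6) (by norm_num)
  rw [PP_riemannZeta_six] at h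
  rw [PeriodPair.g₃, h]
  ring

/-- `g₂³ - 27 g₃² = (4π⁴/3)³ d⁻¹² (E₄³ - E₆²) = (2π)¹² d⁻¹² Δ(τ)`
(`discriminant_eq_E₄_cube_sub_E₆_sq`) -/
theorem disc_pp (d : ℂ) (hd : d ≠ 0) (τ : ℍ) :
    (pp d hd τ).g₂ ^ 3 - 27 * (pp d hd τ).g₃ ^ 2 =
      (2 * (π : ℂ)) ^ 12 * (d ^ 12)⁻¹ * ModularForm.discriminant τ := by
  rw [g₂_pp, g₃_pp, discriminant_eq_E₄_cube_sub_E₆_sq]
  simp only [← inv_pow]
  ring

theorem disc_pp_ne_zero (d : ℂ) (hd : d ≠ 0) (τ : ℍ) :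
    (pp d hd τ).g₂ ^ 3 - 27 * (pp d hd τ).g₃ ^ 2 ≠ 0 := by
  rw [disc_pp]
  have hπ : (π : ℂ) ≠ 0 := by exact_mod_cast Real.pi_ne_zero
  exact mul_ne_zero (mul_ne_zero (pow_ne_zero _ (mul_ne_zero two_ne_zero hπ))
    (inv_ne_zero (pow_ne_zero _ hd))) (ModularForm.discriminant_ne_zero τ)

end Fermat.Agent.S15.Mod.U
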