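import Fermat.Agent.S15.Mod.U.Dup

/-!
# S15-MOD-U : `℘' w ≠ 0` off the 2-torsion, injectivity of `℘` mod `±`
-/

set_option autoImplicit false

open scoped Topology PeriodPair

namespace Fermat.Agent.S15.Mod.U

variable (L : PeriodPair)

/-- `℘' w = ℘' (w - 2w) = ℘' (-w) = - ℘' w` -/
theorem deriv_eq_zero_of_two_mul_mem {w : ℂ} (h2 : 2 * w ∈ L.lattice) : ℘'[L] w = 0 := by
  have h1 := L.derivWeierstrassP_sub_coe w ⟨2 * w, h2⟩
  have h3 : w - ((⟨2 * w, h2⟩ : L.lattice) : ℂ) = -w := by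
    show w - 2 * w = -w
    ring
  rw [h3, L.derivWeierstrassP_neg] at h1
  have h4 : 2 * ℘'[L] w = 0 := by linear_combination -h1
  exact (mul_eq_zero.1 h4).resolve_left two_ne_zero

/-- pure algebra: a common root of `4x³ - g₂x - g₃` and `12x² - g₂` forces `g₂³ = 27 g₃²` -/
theorem disc_eq_zero_of_double_root {g2 g3 x : ℂ} (h1 : 4 * x ^ 3 - g2 * x - g3 = 0)
    (h2 : 6 * x ^ 2 - g2 / 2 = 0) : g2 ^ 3 - 27 * g3 ^ 2 = 0 := by
  have hg2 : g2 = 12 * x ^ 2 := by linear_combination -2 * h2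
  subst hg2
  have hg3 : g3 = -8 * x ^ 3 := by linear_combination -h1
  subst hg3
  ring

/-- `dup_formula` + `derivWeierstrassP_sq` + `disc_eq_zero_of_double_root` -/
theorem deriv_ne_zero (hΔ : L.g₂ ^ 3 - 27 * L.g₃ ^ 2 ≠ 0) {w : ℂ} (hw : w ∉ L.lattice)
    (h2 : 2 * w ∉ L.lattice) : ℘'[L] w ≠ 0 := by
  intro h0
  have h1 := dup_formula L hw h2
  have h3 := L.derivWeierstrassP_sq w hw
  rw [h0] at h1 h3
  have h4 : 6 * ℘[L] w ^ 2 - L.g₂ / 2 = 0 := by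
    have : (6 * ℘[L] w ^ 2 - L.g₂ / 2) ^ 2 = 0 := by rw [← h1]; ring
    exact pow_eq_zero_iff (two_ne_zero) |>.1 this
  have h5 : 4 * ℘[L] w ^ 3 - L.g₂ * ℘[L] w - L.g₃ = 0 := by rw [← h3]; ring
  exact hΔ (disc_eq_zero_of_double_root h5 h4)

/-- otherwise `add_formula`, `sub_formula` give `(℘' z - ℘' w)² = 0 = (℘' z + ℘' w)²`, so
`℘' w = 0`, contradicting `deriv_ne_zero`. -/
theorem wp_inj (hΔ : L.g₂ ^ 3 - 27 * L.g₃ ^ 2 ≠ 0) {z w : ℂ} (hz : z ∉ L.lattice)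
    (hw : w ∉ L.lattice) (h2 : 2 * w ∉ L.lattice) (h : ℘[L] z = ℘[L] w) :
    z - w ∈ L.lattice ∨ z + w ∈ L.lattice := by
  by_contra hcon
  rw [not_or] at hcon
  obtain ⟨hm, hp⟩ := hcon
  have h1 := add_formula L hz hw hp h2
  have h3 := sub_formula L hz hw hm h2
  rw [h, sub_self] at h1 h3
  have h4 : ℘'[L] z - ℘'[L] w = 0 := by
    have : (℘'[L] z - ℘'[L] w) ^ 2 = 0 := by rw [← h1]; ring
    exact pow_eq_zero_iff (two_ne_zero) |>.1 this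
  have h5 : ℘'[L] z + ℘'[L] w = 0 := by
    have : (℘'[L] z + ℘'[L] w) ^ 2 = 0 := by rw [← h3]; ring
    exact pow_eq_zero_iff (two_ne_zero) |>.1 this
  have h6 : 2 * ℘'[L] w = 0 := by linear_combination h5 - h4
  exact deriv_ne_zero L hΔ hw h2 ((mul_eq_zero.1 h6).resolve_left two_ne_zero)

end Fermat.Agent.S15.Mod.U
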