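import Mathlib

/-!
# S15-MOD-U : the function `addRel` whose vanishing is the addition theorem
-/

set_option autoImplicit false

open scoped Topology PeriodPair

namespace Fermat.Agent.S15.Mod.U

/-- `4 (℘(z+w) + ℘ z + ℘ w) (℘ z - ℘ w)² - (℘' z - ℘' w)²` -/
noncomputable def addRel (L : PeriodPair) (w z : ℂ) : ℂ :=
  4 * (℘[L] (z + w) + ℘[L] z + ℘[L] w) * (℘[L] z - ℘[L] w) ^ 2 - (℘'[L] z - ℘'[L] w) ^ 2

end Fermat.Agent.S15.Mod.U
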