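import Fermat.Agent.S15.Mod.U.Deriv

/-!
# S15-MOD-U : Taylor coefficients of `z ↦ ℘ (z + w)` at `0`
-/

set_option autoImplicit false

open scoped Topology PeriodPair

namespace Fermat.Agent.S15.Mod.U

variable (L : PeriodPair)

theorem Taylor_eventually {w : ℂ} (hw : w ∉ L.lattice) :
    ∀ᶠ z in 𝓝 (0 : ℂ), z + w ∉ L.lattice := by
  have hopen : IsOpen ((L.lattice : Set ℂ)ᶜ) := L.isClosed_lattice.isOpen_compl
  have hcont : ContinuousAt (fun z : ℂ => z + w) 0 := by fun_prop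
  have hmem : (L.lattice : Set ℂ)ᶜ ∈ 𝓝 ((fun z : ℂ => z + w) 0) :=
    hopen.mem_nhds (by simpa using hw)
  exact hcont.eventually hmem

/-- Taylor coefficients of `z ↦ ℘ (z + w)` at `0` up to order 3 -/
theorem iteratedDeriv_wp_shift {w : ℂ} (hw : w ∉ L.lattice) :
    iteratedDeriv 0 (fun z => ℘[L] (z + w)) 0 = ℘[L] w ∧
    iteratedDeriv 1 (fun z => ℘[L] (z + w)) 0 = ℘'[L] w ∧
    iteratedDeriv 2 (fun z => ℘[L] (z + w)) 0 = 6 * ℘[L] w ^ 2 - L.g₂ / 2 ∧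
    iteratedDeriv 3 (fun z => ℘[L] (z + w)) 0 = 12 * ℘[L] w * ℘'[L] w := by
  have hev := Taylor_eventually L hw
  have hw0 : (0 : ℂ) + w ∉ L.lattice := by simpa using hw
  have h1 : ∀ z : ℂ, z + w ∉ L.lattice →
      HasDerivAt (fun z => ℘[L] (z + w)) (℘'[L] (z + w)) z :=
    fun z hz => (hasDerivAt_wp L hz).comp_add_const z w
  have h2 : ∀ z : ℂ, z + w ∉ L.lattice →
      HasDerivAt (fun z => ℘'[L] (z + w)) (6 * ℘[L] (z + w) ^ 2 - L.g₂ / 2) z :=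
    fun z hz => (hasDerivAt_wp' L hz).comp_add_const z w
  have h3 : ∀ z : ℂ, z + w ∉ L.lattice →
      HasDerivAt (fun z => 6 * ℘[L] (z + w) ^ 2 - L.g₂ / 2)
        (12 * ℘[L] (z + w) * ℘'[L] (z + w)) z := by
    intro z hz
    have := (((h1 z hz).pow 2).const_mul 6).sub_const (L.g₂ / 2)
    have he : 12 * ℘[L] (z + w) * ℘'[L] (z + w) =
        6 * (((2 : ℕ) : ℂ) * ℘[L] (z + w) ^ (2 - 1) * ℘'[L] (z + w)) := by
      push_cast
      ring
    rw [he]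
    exact this
  have e1 : deriv (fun z => ℘[L] (z + w)) =ᶠ[𝓝 0] fun z => ℘'[L] (z + w) :=
    hev.mono fun z hz => (h1 z hz).deriv
  have e2 : deriv (deriv (fun z => ℘[L] (z + w))) =ᶠ[𝓝 0]
      fun z => 6 * ℘[L] (z + w) ^ 2 - L.g₂ / 2 :=
    e1.deriv.trans (hev.mono fun z hz => (h2 z hz).deriv)
  refine ⟨by simp, ?_, ?_, ?_⟩
  · rw [iteratedDeriv_one, (h1 0 hw0).deriv, zero_add]
  · rw [iteratedDeriv_succ, iteratedDeriv_one, e1.deriv_eq, (h2 0 hw0).deriv, zero_add]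
  · rw [iteratedDeriv_succ, iteratedDeriv_succ, iteratedDeriv_one, e2.deriv_eq, (h3 0 hw0).deriv,
      zero_add]

theorem analyticAt_wp_shift {w : ℂ} (hw : w ∉ L.lattice) :
    AnalyticAt ℂ (fun z => ℘[L] (z + w)) 0 := by
  have h1 : AnalyticAt ℂ ℘[L] ((fun z : ℂ => z + w) 0) :=
    L.analyticOnNhd_weierstrassP _ (by simpa using hw)
  have h2 : AnalyticAt ℂ (fun z : ℂ => z + w) 0 := by fun_prop
  exact AnalyticAt.comp (g := ℘[L]) (f := fun z : ℂ => z + w) h1 h2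

end Fermat.Agent.S15.Mod.U
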