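import Fermat.Agent.S15.Mod.U.AddDefs
import Fermat.Agent.S15.Mod.U.Taylor

/-!
# S15-MOD-U : `addRel` has no pole at `0`
-/

set_option autoImplicit false

open scoped Topology PeriodPair

namespace Fermat.Agent.S15.Mod.U

variable (L : PeriodPair)

attribute [local fun_prop] AnalyticAt.contDiffAt in
theorem AddPole_X (E A : ℂ → ℂ) (hE : AnalyticAt ℂ E 0)
    (hA : AnalyticAt ℂ A 0) (P P' G : ℂ)
    (e0 : iteratedDeriv 0 E 0 = 0) (e1 : iteratedDeriv 1 E 0 = 0)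
    (e2 : iteratedDeriv 2 E 0 = 6 * G) (e3 : iteratedDeriv 3 E 0 = 0)
    (a0 : iteratedDeriv 0 A 0 = P) (a1 : iteratedDeriv 1 A 0 = P')
    (a2 : iteratedDeriv 2 A 0 = 6 * P ^ 2 - 30 * G) (a3 : iteratedDeriv 3 A 0 = 12 * P * P') :
    iteratedDeriv 0 (fun z => A z * z ^ 2 + E z * z ^ 2 + 1 + P * z ^ 2) 0 = 1 ∧
    iteratedDeriv 1 (fun z => A z * z ^ 2 + E z * z ^ 2 + 1 + P * z ^ 2) 0 = 0 ∧
    iteratedDeriv 2 (fun z => A z * z ^ 2 + E z * z ^ 2 + 1 + P * z ^ 2) 0 = 4 * P ∧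
    iteratedDeriv 3 (fun z => A z * z ^ 2 + E z * z ^ 2 + 1 + P * z ^ 2) 0 = 6 * P' ∧
    iteratedDeriv 4 (fun z => A z * z ^ 2 + E z * z ^ 2 + 1 + P * z ^ 2) 0 = 72 * P ^ 2 - 288 * G ∧
    iteratedDeriv 5 (fun z => A z * z ^ 2 + E z * z ^ 2 + 1 + P * z ^ 2) 0 = 240 * P * P' := by
  simp (discharger := fun_prop) only [iteratedDeriv_fun_add, iteratedDeriv_fun_sub,
    iteratedDeriv_fun_mul, iteratedDeriv_const, iteratedDeriv_fun_pow_zero]
  simp only [iteratedDeriv_zero] at e0 a0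
  simp only [iteratedDeriv_one] at e1 a1
  refine ⟨?_, ?_, ?_, ?_, ?_, ?_⟩
  · simp [Finset.sum_range_succ]
  · simp [Finset.sum_range_succ]
  · simp [Finset.sum_range_succ, e0, a0]
    ring
  · simp [Finset.sum_range_succ, e0, a0, e1, a1, Nat.choose, Nat.factorial]
    ring
  · simp [Finset.sum_range_succ, e0, a0, e1, a1, e2, a2, Nat.choose, Nat.factorial]
    ring
  · simp [Finset.sum_range_succ, e0, a0, e1, a1, e2, a2, e3, a3, Nat.choose, Nat.factorial]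
    ring

attribute [local fun_prop] AnalyticAt.contDiffAt in
theorem AddPole_Y (E : ℂ → ℂ) (hE : AnalyticAt ℂ E 0) (P G : ℂ)
    (e0 : iteratedDeriv 0 E 0 = 0) (e1 : iteratedDeriv 1 E 0 = 0)
    (e2 : iteratedDeriv 2 E 0 = 6 * G) (e3 : iteratedDeriv 3 E 0 = 0) :
    iteratedDeriv 0 (fun z => E z * z ^ 2 + 1 - P * z ^ 2) 0 = 1 ∧
    iteratedDeriv 1 (fun z => E z * z ^ 2 + 1 - P * z ^ 2) 0 = 0 ∧
    iteratedDeriv 2 (fun z => E z * z ^ 2 + 1 - P * z ^ 2) 0 = - 2 * P ∧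
    iteratedDeriv 3 (fun z => E z * z ^ 2 + 1 - P * z ^ 2) 0 = 0 ∧
    iteratedDeriv 4 (fun z => E z * z ^ 2 + 1 - P * z ^ 2) 0 = 72 * G ∧
    iteratedDeriv 5 (fun z => E z * z ^ 2 + 1 - P * z ^ 2) 0 = 0 := by
  simp (discharger := fun_prop) only [iteratedDeriv_fun_add, iteratedDeriv_fun_sub,
    iteratedDeriv_fun_mul, iteratedDeriv_const, iteratedDeriv_fun_pow_zero]
  simp only [iteratedDeriv_zero] at e0
  simp only [iteratedDeriv_one] at e1
  refine ⟨?_, ?_, ?_, ?_, ?_, ?_⟩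
  · simp [Finset.sum_range_succ]
  · simp [Finset.sum_range_succ]
  · simp [Finset.sum_range_succ, e0]
    ring
  · simp [Finset.sum_range_succ, e0, e1, Nat.choose, Nat.factorial]
  · simp [Finset.sum_range_succ, e0, e1, e2, Nat.choose, Nat.factorial]
    ring
  · simp [Finset.sum_range_succ, e0, e1, e2, e3, Nat.choose, Nat.factorial]

attribute [local fun_prop] AnalyticAt.contDiffAt in
theorem AddPole_W (E' : ℂ → ℂ) (hE' : AnalyticAt ℂ E' 0) (P' G : ℂ)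
    (d0 : iteratedDeriv 0 E' 0 = 0) (d1 : iteratedDeriv 1 E' 0 = 6 * G)
    (d2 : iteratedDeriv 2 E' 0 = 0) :
    iteratedDeriv 0 (fun z => E' z * z ^ 3 - 2 - P' * z ^ 3) 0 = -2 ∧
    iteratedDeriv 1 (fun z => E' z * z ^ 3 - 2 - P' * z ^ 3) 0 = 0 ∧
    iteratedDeriv 2 (fun z => E' z * z ^ 3 - 2 - P' * z ^ 3) 0 = 0 ∧
    iteratedDeriv 3 (fun z => E' z * z ^ 3 - 2 - P' * z ^ 3) 0 = - 6 * P' ∧
    iteratedDeriv 4 (fun z => E' z * z ^ 3 - 2 - P' * z ^ 3) 0 = 144 * G ∧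
    iteratedDeriv 5 (fun z => E' z * z ^ 3 - 2 - P' * z ^ 3) 0 = 0 := by
  simp (discharger := fun_prop) only [iteratedDeriv_fun_add, iteratedDeriv_fun_sub,
    iteratedDeriv_fun_mul, iteratedDeriv_const, iteratedDeriv_fun_pow_zero]
  simp only [iteratedDeriv_zero] at d0
  simp only [iteratedDeriv_one] at d1
  refine ⟨?_, ?_, ?_, ?_, ?_, ?_⟩
  · simp [Finset.sum_range_succ]
  · simp [Finset.sum_range_succ]
  · simp [Finset.sum_range_succ]
  · simp [Finset.sum_range_succ, d0, Nat.choose, Nat.factorial]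
    ring
  · simp [Finset.sum_range_succ, d0, d1, Nat.choose, Nat.factorial]
    ring
  · simp [Finset.sum_range_succ, d0, d1, d2, Nat.choose, Nat.factorial]

attribute [local fun_prop] AnalyticAt.contDiffAt in
theorem AddPole_prod (X Y W : ℂ → ℂ) (hX : AnalyticAt ℂ X 0) (hY : AnalyticAt ℂ Y 0)
    (hW : AnalyticAt ℂ W 0) (P P' G : ℂ)
    (x0 : iteratedDeriv 0 X 0 = 1) (x1 : iteratedDeriv 1 X 0 = 0)
    (x2 : iteratedDeriv 2 X 0 = 4 * P) (x3 : iteratedDeriv 3 X 0 = 6 * P')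
    (x4 : iteratedDeriv 4 X 0 = 72 * P ^ 2 - 288 * G) (x5 : iteratedDeriv 5 X 0 = 240 * P * P')
    (y0 : iteratedDeriv 0 Y 0 = 1) (y1 : iteratedDeriv 1 Y 0 = 0)
    (y2 : iteratedDeriv 2 Y 0 = - 2 * P) (y3 : iteratedDeriv 3 Y 0 = 0)
    (y4 : iteratedDeriv 4 Y 0 = 72 * G) (y5 : iteratedDeriv 5 Y 0 = 0)
    (w0 : iteratedDeriv 0 W 0 = -2) (w1 : iteratedDeriv 1 W 0 = 0)
    (w2 : iteratedDeriv 2 W 0 = 0) (w3 : iteratedDeriv 3 W 0 = - 6 * P')
    (w4 : iteratedDeriv 4 W 0 = 144 * G) (w5 : iteratedDeriv 5 W 0 = 0)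
    (i : ℕ) (hi : i < 6) :
    iteratedDeriv i (fun z => 4 * X z * (Y z * Y z) - W z * W z) 0 = 0 := by
  simp (discharger := fun_prop) only [iteratedDeriv_fun_add, iteratedDeriv_fun_sub,
    iteratedDeriv_fun_mul, iteratedDeriv_const]
  simp only [iteratedDeriv_zero] at x0 y0 w0
  simp only [iteratedDeriv_one] at x1 y1 w1
  interval_cases i
  · simp [Finset.sum_range_succ, x0, y0, w0]
    norm_num
  · simp [Finset.sum_range_succ, x0, y0, w0, x1, y1, w1]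
  · simp [Finset.sum_range_succ, x0, y0, w0, x1, y1, w1, x2, y2, w2]
    ring
  · simp [Finset.sum_range_succ, x0, y0, w0, x1, y1, w1, x2, y2, w2, x3, y3, w3, Nat.choose]
    ring
  · simp [Finset.sum_range_succ, x0, y0, w0, x1, y1, w1, x2, y2, w2, x3, y3, w3, x4, y4, w4,
      Nat.choose]
    ring
  · simp [Finset.sum_range_succ, x0, y0, w0, x1, y1, w1, x2, y2, w2, x3, y3, w3, x4, y4, w4,
      x5, y5, w5, Nat.choose]
    ring

/-- PROOF (copy the technique of Mathlib's private lemmas `relation_mul_id_pow_six_eventuallyEq`,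
`analyticAt_relation_zero` in `Analysis/SpecialFunctions/Elliptic/Weierstrass.lean`).
With `E := ℘[L - 0]`, `E' := ℘'[L - 0]` (analytic at 0), `A z := ℘ (z + w)`, `P = ℘ w`, `P' = ℘' w`:
near `0`,  `addRel L w z * z ^ 6 = 4 (A z z² + E z z² + 1 + P z²) (E z z² + 1 - P z²)² -
(E' z z³ - 2 - P' z³)²`, an analytic function whose Taylor coefficients of order `0..5` vanish:
`E z² = 3 G₄ z⁴ + O(z⁶)`, `E' z³ = 6 G₄ z⁴ + O(z⁶)`,
`A z² = P z² + P' z³ + (P''/2) z⁴ + (P'''/6) z⁵ + ..`; the expansion is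
`2 (P'' - 6P² + g₂/2) z⁴ + (2/3)(P''' - 12 P P') z⁵ + O(z⁶)` and `iteratedDeriv_wp_shift` kills both
(`g₂ = 60 G₄`).  So the analytic order of the product is `≥ 6` and the order of `addRel` is `≥ 0`. -/
theorem order_addRel_zero {w : ℂ} (hw : w ∉ L.lattice) :
    0 ≤ meromorphicOrderAt (addRel L w) 0 := by
  set A : ℂ → ℂ := fun z => ℘[L] (z + w) with hAdef
  set E : ℂ → ℂ := ℘[L - (0 : ℂ)] with hEdef
  set E' : ℂ → ℂ := ℘'[L - (0 : ℂ)] with hE'def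
  set P : ℂ := ℘[L] w with hP
  set P' : ℂ := ℘'[L] w with hP'
  have hA : AnalyticAt ℂ A 0 := analyticAt_wp_shift L hw
  have hE : AnalyticAt ℂ E 0 := L.analyticAt_weierstrassPExcept 0
  have hE' : AnalyticAt ℂ E' 0 := L.analyticAt_derivWeierstrassPExcept 0
  have hX : AnalyticAt ℂ (fun z => A z * z ^ 2 + E z * z ^ 2 + 1 + P * z ^ 2) 0 := by fun_prop
  have hY : AnalyticAt ℂ (fun z => E z * z ^ 2 + 1 - P * z ^ 2) 0 := by fun_prop
  have hW : AnalyticAt ℂ (fun z => E' z * z ^ 3 - 2 - P' * z ^ 3) 0 := by fun_prop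
  have hF : AnalyticAt ℂ (fun z => 4 * (A z * z ^ 2 + E z * z ^ 2 + 1 + P * z ^ 2) *
      ((E z * z ^ 2 + 1 - P * z ^ 2) * (E z * z ^ 2 + 1 - P * z ^ 2)) -
      (E' z * z ^ 3 - 2 - P' * z ^ 3) * (E' z * z ^ 3 - 2 - P' * z ^ 3)) 0 := by fun_prop
  have hev : (addRel L w * id ^ 6) =ᶠ[𝓝 0]
      (fun z => 4 * (A z * z ^ 2 + E z * z ^ 2 + 1 + P * z ^ 2) *
      ((E z * z ^ 2 + 1 - P * z ^ 2) * (E z * z ^ 2 + 1 - P * z ^ 2)) -
      (E' z * z ^ 3 - 2 - P' * z ^ 3) * (E' z * z ^ 3 - 2 - P' * z ^ 3)) := by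
    filter_upwards with z
    by_cases hz0 : z = 0
    · simp [hz0]; norm_num
    have h1 : E z = ℘[L] z - 1 / z ^ 2 := by
      have := L.weierstrassPExcept_def 0 z
      simp only [ZeroMemClass.coe_zero, sub_zero] at this
      rw [hEdef, this]
      simp
      ring
    have h2 : E' z = ℘'[L] z + 2 / z ^ 3 := by
      have := L.derivWeierstrassPExcept_def 0 z
      simp only [ZeroMemClass.coe_zero, sub_zero] at this
      rw [hE'def, this]
    simp only [Pi.mul_apply, Pi.pow_apply, id, addRel, h1, h2]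
    field_simp
    ring
  have hmer : MeromorphicAt (addRel L w) 0 := by
    have h1 : MeromorphicAt ℘[L] 0 := L.meromorphic_weierstrassP 0
    have h2 : MeromorphicAt ℘'[L] 0 := L.meromorphic_derivWeierstrassP 0
    have h3 : MeromorphicAt A 0 := hA.meromorphicAt
    unfold addRel
    fun_prop
  have hG3 : L.G 3 = 0 := L.G_eq_zero_of_odd 3 (by decide)
  have hG5 : L.G 5 = 0 := L.G_eq_zero_of_odd 5 (by decide)
  have e0 : iteratedDeriv 0 E 0 = 0 := by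
    rw [hEdef, L.iteratedDeriv_weierstrassPExcept_self 0]; simp
  have e1 : iteratedDeriv 1 E 0 = 0 := by
    rw [hEdef, L.iteratedDeriv_weierstrassPExcept_self 0]; simp [hG3]
  have e2 : iteratedDeriv 2 E 0 = 6 * L.G 4 := by
    rw [hEdef, L.iteratedDeriv_weierstrassPExcept_self 0]; simp [Nat.factorial]
  have e3 : iteratedDeriv 3 E 0 = 0 := by
    rw [hEdef, L.iteratedDeriv_weierstrassPExcept_self 0]; simp [hG5]
  have d0 : iteratedDeriv 0 E' 0 = 0 := by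
    rw [hE'def, L.iteratedDeriv_derivWeierstrassPExcept_self 0]; simp [hG3]
  have d1 : iteratedDeriv 1 E' 0 = 6 * L.G 4 := by
    rw [hE'def, L.iteratedDeriv_derivWeierstrassPExcept_self 0]; simp [Nat.factorial]
  have d2 : iteratedDeriv 2 E' 0 = 0 := by
    rw [hE'def, L.iteratedDeriv_derivWeierstrassPExcept_self 0]; simp [hG5]
  obtain ⟨a0, a1, a2, a3⟩ := iteratedDeriv_wp_shift L hw
  have a2' : iteratedDeriv 2 A 0 = 6 * P ^ 2 - 30 * L.G 4 := by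
    rw [a2, PeriodPair.g₂]; ring
  obtain ⟨x0, x1, x2, x3, x4, x5⟩ := AddPole_X E A hE hA P P' (L.G 4) e0 e1 e2 e3 a0 a1 a2' a3
  obtain ⟨y0, y1, y2, y3, y4, y5⟩ := AddPole_Y E hE P (L.G 4) e0 e1 e2 e3
  obtain ⟨w0, w1, w2, w3, w4, w5⟩ := AddPole_W E' hE' P' (L.G 4) d0 d1 d2
  have h6 : 6 ≤ meromorphicOrderAt (addRel L w * id ^ 6) 0 := by
    rw [meromorphicOrderAt_congr (hev.filter_mono nhdsWithin_le_nhds), hF.meromorphicOrderAt_eq]
    refine ENat.monotone_map_iff.mpr Nat.mono_cast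
      ((natCast_le_analyticOrderAt_iff_iteratedDeriv_eq_zero hF).mpr fun i hi => ?_)
    exact AddPole_prod _ _ _ hX hY hW P P' (L.G 4) x0 x1 x2 x3 x4 x5 y0 y1 y2 y3 y4 y5
      w0 w1 w2 w3 w4 w5 i hi
  rw [meromorphicOrderAt_mul hmer (by fun_prop), meromorphicOrderAt_pow (by fun_prop)] at h6
  rw [← WithTop.add_le_add_iff_right (z := 6) (by simp)]
  simpa [-add_le_add_iff_left_of_ne_top] using! h6

end Fermat.Agent.S15.Mod.U
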