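import Mathlib
import Fermat.Agent.S05.Formulas

/-!
# S15-MOD-U : the group law in the coordinates `X = x + b₂/12`, `ps = 2y + a₁x + a₃`
-/

set_option autoImplicit false

namespace Fermat.Agent.S15.Mod.U

open WeierstrassCurve WeierstrassCurve.Affine Fermat.Agent.S05

variable {K : Type*} [Field K] [CharZero K] [DecidableEq K] {W : WeierstrassCurve.Affine K}

/-- `x + b₂/12` (junk value at the origin) -/
def X (P : W.Point) : K := xc P + W.b₂ / 12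

theorem X_neg (P : W.Point) : X (-P) = X P := by
  rw [X, X, xc_neg]

/-- from `S05.ps_sq` -/
theorem alg_ps_sq {P : W.Point} (hP : P ≠ 0) :
    ps P ^ 2 = 4 * X P ^ 3 - W.c₄ / 12 * X P - W.c₆ / 216 := by
  rw [ps_sq hP, X, WeierstrassCurve.c₄, WeierstrassCurve.c₆]
  ring

/-- from `S05.xc_add` -/
theorem alg_add {P Q : W.Point} (hP : P ≠ 0) (hQ : Q ≠ 0) (hne : X P ≠ X Q) :
    P + Q ≠ 0 ∧ 4 * (X (P + Q) + X P + X Q) * (X P - X Q) ^ 2 = (ps P - ps Q) ^ 2 := by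
  have hne' : xc P ≠ xc Q := fun h => hne (by rw [X, X, h])
  obtain ⟨h1, h2⟩ := xc_add hP hQ hne'
  refine ⟨h1, ?_⟩
  rw [X, X, X]
  linear_combination h2

/-- from `S05.xc_sub` -/
theorem alg_sub {P Q : W.Point} (hP : P ≠ 0) (hQ : Q ≠ 0) (hne : X P ≠ X Q) :
    P - Q ≠ 0 ∧ 4 * (X (P - Q) + X P + X Q) * (X P - X Q) ^ 2 = (ps P + ps Q) ^ 2 := by
  have hne' : xc P ≠ xc Q := fun h => hne (by rw [X, X, h])
  obtain ⟨h1, h2⟩ := xc_sub hP hQ hne'
  refine ⟨h1, ?_⟩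
  rw [X, X, X]
  linear_combination h2

/-- from `S05.xc_add_self` and `S05.ps_sq` -/
theorem alg_dup {P : W.Point} (hP : P ≠ 0) (h2 : P + P ≠ 0) :
    4 * (X (P + P) + 2 * X P) * ps P ^ 2 = (6 * X P ^ 2 - W.c₄ / 24) ^ 2 := by
  have h1 := xc_add_self hP h2
  have h3 := ps_sq hP
  have h4 := W.b_relation
  rw [X, X, WeierstrassCurve.c₄]
  linear_combination 4 * h1 + (8 * xc P + W.b₂) * h3 - h4

/-- from `S05.eq_or_eq_neg_of_xc_eq` -/
theorem eq_or_eq_neg_of_X_eq {P Q : W.Point} (hP : P ≠ 0) (hQ : Q ≠ 0) (h : X P = X Q) :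
    P = Q ∨ P = -Q := by
  exact eq_or_eq_neg_of_xc_eq hP hQ (add_right_cancel h)

end Fermat.Agent.S15.Mod.U
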