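import Mathlib
import Fermat.Agent.Lib.JInjective

/-!
# S15-MOD-U : `℘`, `g₂`, `g₃` depend only on the lattice; the period pairs `pp d hd τ = (dτ, d)`
-/

set_option autoImplicit false

open UpperHalfPlane ModularForm EisensteinSeries
open scoped Topology PeriodPair Real

namespace Fermat.Agent.S15.Mod.U

open Fermat.Agent.Lib.JInjective

theorem wp_congr {L₁ L₂ : PeriodPair} (h : L₁.lattice = L₂.lattice) : ℘[L₁] = ℘[L₂] := by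
  funext z
  have key : ∀ Λ₁ Λ₂ : Submodule ℤ ℂ, Λ₁ = Λ₂ →
      (∑' l : Λ₁, (1 / (z - l) ^ 2 - 1 / (l : ℂ) ^ 2)) =
        ∑' l : Λ₂, (1 / (z - l) ^ 2 - 1 / (l : ℂ) ^ 2) := by
    rintro _ _ rfl
    rfl
  exact key _ _ h

theorem G_congr {L₁ L₂ : PeriodPair} (h : L₁.lattice = L₂.lattice) (n : ℕ) : L₁.G n = L₂.G n := by
  have key : ∀ Λ₁ Λ₂ : Submodule ℤ ℂ, Λ₁ = Λ₂ →
      (∑' l : Λ₁, ((l : ℂ) ^ n)⁻¹) = ∑' l : Λ₂, ((l : ℂ) ^ n)⁻¹ := by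
    rintro _ _ rfl
    rfl
  exact key _ _ h

theorem g₂_congr {L₁ L₂ : PeriodPair} (h : L₁.lattice = L₂.lattice) : L₁.g₂ = L₂.g₂ := by
  unfold PeriodPair.g₂
  rw [G_congr h]

theorem g₃_congr {L₁ L₂ : PeriodPair} (h : L₁.lattice = L₂.lattice) : L₁.g₃ = L₂.g₃ := by
  unfold PeriodPair.g₃
  rw [G_congr h]

theorem mem_lattice_pp {d : ℂ} {hd : d ≠ 0} {τ : ℍ} {x : ℂ} :
    x ∈ (pp d hd τ).lattice ↔ ∃ m n : ℤ, x = d * ((m : ℂ) * τ + n) := by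
  rw [PeriodPair.mem_lattice]
  constructor
  · rintro ⟨m, n, h⟩
    refine ⟨m, n, ?_⟩
    rw [← h]
    simp only [pp]
    ring
  · rintro ⟨m, n, h⟩
    refine ⟨m, n, ?_⟩
    rw [h]
    simp only [pp]
    ring

/-- homogeneity: reindex the sum by `l ↦ d l` -/
theorem wp_pp_mul (d : ℂ) (hd : d ≠ 0) (τ : ℍ) (z : ℂ) :
    ℘[pp d hd τ] (d * z) = (d ^ 2)⁻¹ * ℘[pp 1 one_ne_zero τ] z := by
  have h1 : ∀ (L : PeriodPair) (w : ℂ), ℘[L] w = ∑' x : ℤ × ℤ,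
      (1 / (w - ((x.1 : ℂ) * L.ω₁ + x.2 * L.ω₂)) ^ 2 - 1 / ((x.1 : ℂ) * L.ω₁ + x.2 * L.ω₂) ^ 2) := by
    intro L w
    have h0 := (L.latticeEquivProd.symm.toEquiv.tsum_eq
      (fun l : L.lattice => (1 / (w - l) ^ 2 - 1 / (l : ℂ) ^ 2))).symm
    simp only [LinearEquiv.coe_toEquiv, PeriodPair.latticeEquiv_symm_apply] at h0
    exact h0
  rw [h1, h1, ← tsum_mul_left]
  refine tsum_congr fun x => ?_
  simp only [pp]
  have e1 : d * z - ((x.1 : ℂ) * (d * τ) + x.2 * d) =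
      d * (z - ((x.1 : ℂ) * (1 * τ) + x.2 * 1)) := by ring
  have e2 : ((x.1 : ℂ) * (d * τ) + x.2 * d) = d * ((x.1 : ℂ) * (1 * τ) + x.2 * 1) := by ring
  rw [e1, e2, mul_pow, mul_pow, one_div, one_div, one_div, one_div, mul_inv, mul_inv]
  ring

end Fermat.Agent.S15.Mod.U
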