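import Fermat.Agent.S15.Mod.U.Add

/-!
# S15-MOD-U : duplication formula
-/

set_option autoImplicit false

open scoped Topology PeriodPair

namespace Fermat.Agent.S15.Mod.U

variable (L : PeriodPair)

theorem Dup_continuousAt_wp {z : ℂ} (hz : z ∉ L.lattice) : ContinuousAt ℘[L] z :=
  (hasDerivAt_wp L hz).continuousAt

theorem Dup_eventually_notMem {z : ℂ} (hz : z ∉ L.lattice) : ∀ᶠ ζ in 𝓝 z, ζ ∉ L.lattice :=
  L.isClosed_lattice.isOpen_compl.mem_nhds hz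

/-- PROOF. For `ζ ≠ w` near `w`, `add_formula` at `(ζ, w)`; divide by `(ζ - w)²` and let `ζ → w`:
`(℘ ζ - ℘ w)/(ζ - w) → ℘' w`, `(℘' ζ - ℘' w)/(ζ - w) → ℘'' w = 6 ℘² - g₂/2`
(`HasDerivAt.tendsto_slope`, `hasDerivAt_wp`, `hasDerivAt_wp'`), `℘ (ζ + w) → ℘ (2 w)`
(continuity at `2 w ∉ L`); uniqueness of limits. -/
theorem dup_formula {w : ℂ} (hw : w ∉ L.lattice) (h2 : 2 * w ∉ L.lattice) :
    4 * (℘[L] (2 * w) + 2 * ℘[L] w) * ℘'[L] w ^ 2 = (6 * ℘[L] w ^ 2 - L.g₂ / 2) ^ 2 := by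
  have hle : 𝓝[≠] w ≤ 𝓝 w := nhdsWithin_le_nhds
  have s1 : Filter.Tendsto (slope ℘[L] w) (𝓝[≠] w) (𝓝 (℘'[L] w)) :=
    (hasDerivAt_wp L hw).tendsto_slope
  have s2 : Filter.Tendsto (slope ℘'[L] w) (𝓝[≠] w) (𝓝 (6 * ℘[L] w ^ 2 - L.g₂ / 2)) :=
    (hasDerivAt_wp' L hw).tendsto_slope
  have c1 : Filter.Tendsto ℘[L] (𝓝[≠] w) (𝓝 (℘[L] w)) :=
    (Dup_continuousAt_wp L hw).tendsto.mono_left hle
  have hadd : Filter.Tendsto (fun ζ : ℂ => ζ + w) (𝓝 w) (𝓝 (2 * w)) := by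
    have : ContinuousAt (fun ζ : ℂ => ζ + w) w := by fun_prop
    have h := this.tendsto
    rwa [show w + w = 2 * w by ring] at h
  have c2 : Filter.Tendsto (fun ζ : ℂ => ℘[L] (ζ + w)) (𝓝[≠] w) (𝓝 (℘[L] (2 * w))) :=
    ((Dup_continuousAt_wp L h2).tendsto.comp hadd).mono_left hle
  have e1 : ∀ᶠ ζ in 𝓝[≠] w, ζ ∉ L.lattice := hle (Dup_eventually_notMem L hw)
  have e2 : ∀ᶠ ζ in 𝓝[≠] w, ζ + w ∉ L.lattice := hle (hadd (Dup_eventually_notMem L h2))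
  have e3 : ∀ᶠ ζ in 𝓝[≠] w, ζ ≠ w := eventually_mem_nhdsWithin
  have lhs : Filter.Tendsto
      (fun ζ : ℂ => 4 * (℘[L] (ζ + w) + ℘[L] ζ + ℘[L] w) * slope ℘[L] w ζ ^ 2) (𝓝[≠] w)
      (𝓝 (4 * (℘[L] (2 * w) + ℘[L] w + ℘[L] w) * ℘'[L] w ^ 2)) :=
    (((c2.add c1).add_const _).const_mul 4).mul (s1.pow 2)
  have rhs : Filter.Tendsto (fun ζ : ℂ => slope ℘'[L] w ζ ^ 2) (𝓝[≠] w)
      (𝓝 ((6 * ℘[L] w ^ 2 - L.g₂ / 2) ^ 2)) := s2.pow 2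
  have heq : (fun ζ : ℂ => 4 * (℘[L] (ζ + w) + ℘[L] ζ + ℘[L] w) * slope ℘[L] w ζ ^ 2)
      =ᶠ[𝓝[≠] w] fun ζ : ℂ => slope ℘'[L] w ζ ^ 2 := by
    filter_upwards [e1, e2, e3] with ζ h1 h2' h3
    have h := add_formula L h1 hw h2' h2
    simp only [slope_def_field, div_pow]
    rw [← h]
    ring
  have := tendsto_nhds_unique_of_eventuallyEq lhs rhs heq
  rw [← this]
  ring

end Fermat.Agent.S15.Mod.U
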