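import Fermat.Agent.S15.Mod.U.Three

/-!
# S15-MOD-U : the ladder: `X (k • Q) = ℘ (k z₀)`
-/

set_option autoImplicit false

open scoped Topology PeriodPair

namespace Fermat.Agent.S15.Mod.U

open WeierstrassCurve WeierstrassCurve.Affine Fermat.Agent.S05

variable (L : PeriodPair) [DecidableEq ℂ] {W : WeierstrassCurve.Affine ℂ}

variable (h4 : W.c₄ = 12 * L.g₂) (h6 : W.c₆ = 216 * L.g₃)

include h4 h6 in
/-- one step: from `k - 1`, `k` to `k + 1` (`2 ≤ k ≤ p - 2`).  `(k+1) z₀ ∉ L`: otherwise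
`℘ (k z₀) = ℘ (- z₀) = ℘ z₀`, contradicting `X_nsmul_ne`.  Then `wp_three` and `alg_three` with
`(z, w) = (k z₀, z₀)`, `(P, Q) = (k • Q, Q)`; cancel `4 (X (k • Q) - X Q)²`. -/
theorem ladder_step {p : ℕ} {Q : W.Point} (hQ : addOrderOf Q = p) {z₀ : ℂ}
    (hz₀ : z₀ ∉ L.lattice) (h2 : 2 * z₀ ∉ L.lattice) (hx : ℘[L] z₀ = X Q) {k : ℕ} (hk : 2 ≤ k)
    (hkp : k + 2 ≤ p)
    (h1 : ((k - 1 : ℕ) : ℂ) * z₀ ∉ L.lattice ∧ ℘[L] (((k - 1 : ℕ) : ℂ) * z₀) = X ((k - 1) • Q))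
    (h0 : (k : ℂ) * z₀ ∉ L.lattice ∧ ℘[L] ((k : ℂ) * z₀) = X (k • Q)) :
    ((k + 1 : ℕ) : ℂ) * z₀ ∉ L.lattice ∧ ℘[L] (((k + 1 : ℕ) : ℂ) * z₀) = X ((k + 1) • Q) := by
  obtain ⟨j, rfl⟩ : ∃ j, k = j + 1 := ⟨k - 1, by omega⟩
  rw [Nat.add_sub_cancel] at h1
  obtain ⟨h1a, h1b⟩ := h1
  obtain ⟨h0a, h0b⟩ := h0
  have hne : X ((j + 1) • Q) ≠ X Q := X_nsmul_ne hQ hk hkp
  have hQ0 : Q ≠ 0 := by
    intro h
    have h' : 1 • Q = 0 := by rw [one_nsmul, h]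
    have := Nat.le_of_dvd one_pos ((nsmul_eq_zero_iff hQ 1).1 h')
    omega
  have hP0 : (j + 1) • Q ≠ 0 := by
    intro h
    have := Nat.le_of_dvd (Nat.succ_pos j) ((nsmul_eq_zero_iff hQ (j + 1)).1 h)
    omega
  have ep : ((j + 1 : ℕ) : ℂ) * z₀ + z₀ = ((j + 1 + 1 : ℕ) : ℂ) * z₀ := by push_cast; ring
  have em : ((j + 1 : ℕ) : ℂ) * z₀ - z₀ = (j : ℂ) * z₀ := by push_cast; ring
  have hp : ((j + 1 + 1 : ℕ) : ℂ) * z₀ ∉ L.lattice := by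
    intro hmem
    apply hne
    rw [← h0b, ← hx]
    have e : ((j + 1 : ℕ) : ℂ) * z₀ = -z₀ + ((⟨_, hmem⟩ : L.lattice) : ℂ) := by
      show ((j + 1 : ℕ) : ℂ) * z₀ = -z₀ + ((j + 1 + 1 : ℕ) : ℂ) * z₀
      rw [← ep]; ring
    rw [e, L.weierstrassP_add_coe, L.weierstrassP_neg]
  refine ⟨hp, ?_⟩
  have hA := wp_three L h0a hz₀ (by rw [ep]; exact hp) (by rw [em]; exact h1a) h2
  have hB := alg_three hP0 hQ0 hne
  have eP : (j + 1) • Q + Q = (j + 1 + 1) • Q := (succ_nsmul Q (j + 1)).symm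
  have eM : (j + 1) • Q - Q = j • Q := by rw [succ_nsmul, add_sub_cancel_right]
  rw [ep, em, h0b, h1b, hx] at hA
  rw [eP, eM, h4, h6] at hB
  have hD : (X ((j + 1) • Q) - X Q) ^ 2 ≠ 0 := pow_ne_zero 2 (sub_ne_zero.2 hne)
  have hfin : (℘[L] (((j + 1 + 1 : ℕ) : ℂ) * z₀) - X ((j + 1 + 1) • Q)) *
      (X ((j + 1) • Q) - X Q) ^ 2 = 0 := by
    have e1 : (12 * L.g₂ / 12 : ℂ) = L.g₂ := by ring
    have e2 : (216 * L.g₃ / 216 : ℂ) = L.g₃ := by ring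
    rw [e1, e2] at hB
    linear_combination (1 / 4 : ℂ) * hA - (1 / 4 : ℂ) * hB
  exact sub_eq_zero.1 ((mul_eq_zero.1 hfin).resolve_right hD)

include h4 h6 in
/-- induction (two-step) from `ladder_two`, `ladder_step` -/
theorem ladder_all {p : ℕ} (hp : p.Prime) (hp2 : p ≠ 2) {Q : W.Point} (hQ : addOrderOf Q = p)
    {z₀ : ℂ} (hz₀ : z₀ ∉ L.lattice) (hx : ℘[L] z₀ = X Q) (k : ℕ) (hk : 0 < k) (hkp : k < p) :
    (k : ℂ) * z₀ ∉ L.lattice ∧ ℘[L] ((k : ℂ) * z₀) = X (k • Q) := by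
  have hp3 : 3 ≤ p := by
    have := hp.two_le
    omega
  have hQ0 : Q ≠ 0 := by
    intro h
    have h' : 1 • Q = 0 := by rw [one_nsmul, h]
    have := Nat.le_of_dvd one_pos ((nsmul_eq_zero_iff hQ 1).1 h')
    omega
  have hQ2 : Q + Q ≠ 0 := by
    intro h
    have h' : 2 • Q = 0 := by rw [two_nsmul, h]
    have := Nat.le_of_dvd two_pos ((nsmul_eq_zero_iff hQ 2).1 h')
    omega
  have h2 := (two_mul_not_mem L h4 h6 hQ0 hQ2 hz₀ hx).1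
  induction k using Nat.strong_induction_on with
  | _ k ih =>
    rcases Nat.lt_or_ge k 2 with hk1 | hk2
    · obtain rfl : k = 1 := by omega
      rw [Nat.cast_one, one_mul, one_nsmul]
      exact ⟨hz₀, hx⟩
    rcases Nat.lt_or_ge k 3 with hk3 | hk3
    · obtain rfl : k = 2 := by omega
      rw [Nat.cast_two]
      exact ⟨h2, ladder_two L h4 h6 hQ0 hQ2 hz₀ hx⟩
    obtain ⟨j, rfl⟩ : ∃ j, k = j + 1 := ⟨k - 1, by omega⟩
    exact ladder_step L h4 h6 hQ hz₀ h2 hx (k := j) (by omega) (by omega)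
      (ih (j - 1) (by omega) (by omega) (by omega)) (ih j (by omega) (by omega) (by omega))

include h4 h6 in
/-- `X ((p-1) • Q) = X (-Q) = X Q`, so `℘ ((p-1) z₀) = ℘ z₀`; `wp_inj` gives `(p-2) z₀ ∈ L`
(excluded by `ladder_all`) or `p z₀ ∈ L`. -/
theorem ladder_top (hΔ : L.g₂ ^ 3 - 27 * L.g₃ ^ 2 ≠ 0) {p : ℕ} (hp : p.Prime) (hp2 : p ≠ 2)
    {Q : W.Point} (hQ : addOrderOf Q = p) {z₀ : ℂ} (hz₀ : z₀ ∉ L.lattice) (hx : ℘[L] z₀ = X Q) :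
    (p : ℂ) * z₀ ∈ L.lattice := by
  obtain ⟨q, rfl⟩ : ∃ q, p = q + 3 := ⟨p - 3, by have := hp.two_le; omega⟩
  have hQ0 : Q ≠ 0 := by
    intro h
    have h' : 1 • Q = 0 := by rw [one_nsmul, h]
    have := Nat.le_of_dvd one_pos ((nsmul_eq_zero_iff hQ 1).1 h')
    omega
  have hQ2 : Q + Q ≠ 0 := by
    intro h
    have h' : 2 • Q = 0 := by rw [two_nsmul, h]
    have := Nat.le_of_dvd two_pos ((nsmul_eq_zero_iff hQ 2).1 h')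
    omega
  have h2 := (two_mul_not_mem L h4 h6 hQ0 hQ2 hz₀ hx).1
  obtain ⟨ha, hb⟩ := ladder_all L h4 h6 hp hp2 hQ hz₀ hx (q + 2) (by omega) (by omega)
  obtain ⟨hc, -⟩ := ladder_all L h4 h6 hp hp2 hQ hz₀ hx (q + 1) (by omega) (by omega)
  have hneg : (q + 2) • Q = -Q := by
    have h0 : (q + 3) • Q = 0 := (nsmul_eq_zero_iff hQ (q + 3)).2 dvd_rfl
    rw [show q + 3 = q + 2 + 1 from rfl, succ_nsmul] at h0
    exact eq_neg_of_add_eq_zero_left h0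
  rw [hneg, X_neg, ← hx] at hb
  rcases wp_inj L hΔ ha hz₀ h2 hb with h | h
  · exfalso
    apply hc
    have e : ((q + 2 : ℕ) : ℂ) * z₀ - z₀ = ((q + 1 : ℕ) : ℂ) * z₀ := by push_cast; ring
    rwa [e] at h
  · have e : ((q + 2 : ℕ) : ℂ) * z₀ + z₀ = ((q + 3 : ℕ) : ℂ) * z₀ := by push_cast; ring
    rwa [e] at h

end Fermat.Agent.S15.Mod.U
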