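import Fermat.Agent.S15.Mod.U.Inj
import Fermat.Agent.S15.Mod.U.Alg

/-!
# S15-MOD-U : three term relations, start of the ladder
-/

set_option autoImplicit false

open scoped Topology PeriodPair

namespace Fermat.Agent.S15.Mod.U

open WeierstrassCurve WeierstrassCurve.Affine Fermat.Agent.S05

variable (L : PeriodPair) [DecidableEq ℂ] {W : WeierstrassCurve.Affine ℂ}

/-- x-only analytic three term relation: sum of `add_formula` and `sub_formula`, then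
`derivWeierstrassP_sq` twice. -/
theorem wp_three {z w : ℂ} (hz : z ∉ L.lattice) (hw : w ∉ L.lattice) (hp : z + w ∉ L.lattice)
    (hm : z - w ∉ L.lattice) (h2 : 2 * w ∉ L.lattice) :
    4 * (℘[L] (z + w) + ℘[L] (z - w) + 2 * ℘[L] z + 2 * ℘[L] w) * (℘[L] z - ℘[L] w) ^ 2 =
      2 * (4 * ℘[L] z ^ 3 - L.g₂ * ℘[L] z - L.g₃) + 2 * (4 * ℘[L] w ^ 3 - L.g₂ * ℘[L] w - L.g₃) := by
  have ha := add_formula L hz hw hp h2
  have hs := sub_formula L hz hw hm h2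
  have dz := L.derivWeierstrassP_sq z hz
  have dw := L.derivWeierstrassP_sq w hw
  linear_combination ha + hs + 2 * dz + 2 * dw

/-- x-only algebraic three term relation: sum of `alg_add` and `alg_sub`, then `alg_ps_sq` twice. -/
theorem alg_three {P Q : W.Point} (hP : P ≠ 0) (hQ : Q ≠ 0) (hne : X P ≠ X Q) :
    4 * (X (P + Q) + X (P - Q) + 2 * X P + 2 * X Q) * (X P - X Q) ^ 2 =
      2 * (4 * X P ^ 3 - W.c₄ / 12 * X P - W.c₆ / 216) +
        2 * (4 * X Q ^ 3 - W.c₄ / 12 * X Q - W.c₆ / 216) := by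
  have ha := (alg_add hP hQ hne).2
  have hs := (alg_sub hP hQ hne).2
  have dz := alg_ps_sq hP
  have dw := alg_ps_sq hQ
  linear_combination ha + hs + 2 * dz + 2 * dw

/-- multiples of a point of prime order `p`: `k • Q = 0 ↔ p ∣ k` -/
theorem nsmul_eq_zero_iff {p : ℕ} {Q : W.Point} (hQ : addOrderOf Q = p) (k : ℕ) :
    k • Q = 0 ↔ p ∣ k := by
  rw [← hQ]
  exact addOrderOf_dvd_iff_nsmul_eq_zero.symm

/-- for `2 ≤ k ≤ p - 2`: `X (k • Q) ≠ X Q` (else `k • Q = ± Q`, `p ∣ k ∓ 1`) -/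
theorem X_nsmul_ne {p : ℕ} {Q : W.Point} (hQ : addOrderOf Q = p) {k : ℕ} (hk : 2 ≤ k)
    (hkp : k + 2 ≤ p) : X (k • Q) ≠ X Q := by
  intro h
  have hQ0 : Q ≠ 0 := by
    rintro rfl
    rw [addOrderOf_zero] at hQ
    omega
  have hk0 : k • Q ≠ 0 := by
    intro h0
    have := Nat.le_of_dvd (by omega) ((nsmul_eq_zero_iff hQ k).1 h0)
    omega
  rcases eq_or_eq_neg_of_X_eq hk0 hQ0 h with h1 | h1
  · have h2 : (k - 1) • Q = 0 := by
      have e : k = (k - 1) + 1 := by omega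
      rw [e, succ_nsmul] at h1
      exact add_eq_right.1 h1
    have := Nat.le_of_dvd (by omega) ((nsmul_eq_zero_iff hQ (k - 1)).1 h2)
    omega
  · have h2 : (k + 1) • Q = 0 := by
      rw [succ_nsmul, h1, neg_add_cancel]
    have := Nat.le_of_dvd (by omega) ((nsmul_eq_zero_iff hQ (k + 1)).1 h2)
    omega

variable (h4 : W.c₄ = 12 * L.g₂) (h6 : W.c₆ = 216 * L.g₃)

include h4 h6 in
/-- `℘' z₀ ² = ps Q ² ≠ 0` (`alg_ps_sq`, `derivWeierstrassP_sq`, `S05.add_self_eq_zero_iff`), so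
`2 z₀ ∉ L` by `deriv_eq_zero_of_two_mul_mem`. -/
theorem two_mul_not_mem {Q : W.Point} (hQ0 : Q ≠ 0) (hQ2 : Q + Q ≠ 0) {z₀ : ℂ}
    (hz₀ : z₀ ∉ L.lattice) (hx : ℘[L] z₀ = X Q) : 2 * z₀ ∉ L.lattice ∧ ℘'[L] z₀ ^ 2 = ps Q ^ 2 ∧
      ps Q ≠ 0 := by
  have hps : ps Q ≠ 0 := fun h => hQ2 ((add_self_eq_zero_iff hQ0).2 h)
  have hsq : ℘'[L] z₀ ^ 2 = ps Q ^ 2 := by
    rw [L.derivWeierstrassP_sq z₀ hz₀, alg_ps_sq hQ0, hx, h4, h6]
    ring
  refine ⟨fun h2 => ?_, hsq, hps⟩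
  rw [deriv_eq_zero_of_two_mul_mem L h2] at hsq
  exact hps (pow_eq_zero_iff (two_ne_zero)|>.1 (by rw [← hsq]; ring))

include h4 h6 in
/-- `dup_formula` and `alg_dup`, cancel `4 ps Q ²` -/
theorem ladder_two {Q : W.Point} (hQ0 : Q ≠ 0) (hQ2 : Q + Q ≠ 0) {z₀ : ℂ}
    (hz₀ : z₀ ∉ L.lattice) (hx : ℘[L] z₀ = X Q) : ℘[L] (2 * z₀) = X (2 • Q) := by
  obtain ⟨h2, hsq, hps⟩ := two_mul_not_mem L h4 h6 hQ0 hQ2 hz₀ hx
  have hd := dup_formula L hz₀ h2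
  have ha := alg_dup hQ0 hQ2
  rw [hsq, hx] at hd
  rw [h4] at ha
  rw [two_nsmul]
  have h0 : 4 * ps Q ^ 2 ≠ 0 := mul_ne_zero (by norm_num) (pow_ne_zero 2 hps)
  apply mul_left_cancel₀ h0
  linear_combination hd - ha

end Fermat.Agent.S15.Mod.U
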